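import Fermat.Agent.CAR.NS.Chart

/-!
# CAR / NS / ASM-abs : abstract assembly lemmas (S1), (S4), (S5) of the blueprint, and the chart theorem at infinity
(packages CAR-ASM-1, CAR-ASM-2)
-/

set_option autoImplicit false

namespace Fermat.Agent.CAR.NS

open Fermat.Agent.GAL

variable {F Γ₀ ι : Type*} [Field F] [LinearOrderedCommGroupWithZero Γ₀]
  {B : Subring F} {v : ι → Valuation F Γ₀} {p : ι → Ideal B}

/-- **(S1) division trick.**  `x := z / Y`: `π^N' x = z Y' ∈ B`, `v i x ≤ 1`; `KR`.  (`Y ≠ 0` because `π ≠ 0`.) -/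
theorem div_mem {π : B} (hπ0 : π ≠ 0)
    (KR : ∀ z : F, (∃ N : ℕ, (π : F) ^ N * z ∈ B) → (∀ i, v i z ≤ 1) → z ∈ B)
    {Y Y' z : B} {N' : ℕ} (hY : Y * Y' = π ^ N') (h : ∀ i, v i (z : F) ≤ v i (Y : F)) :
    ∃ b : B, z = Y * b := by
  have hY0 : Y ≠ 0 := by
    rintro rfl
    rw [zero_mul] at hY
    exact pow_ne_zero N' hπ0 hY.symm
  have hYF : (Y : F) ≠ 0 := fun h0 => hY0 (Subtype.ext h0)
  have hYF' : (Y : F) * (Y' : F) = (π : F) ^ N' := by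
    have := congrArg (fun b : B => (b : F)) hY
    simpa using this
  have hx : (z : F) / (Y : F) ∈ B := by
    refine KR _ ⟨N', ?_⟩ ?_
    · have e : (π : F) ^ N' * ((z : F) / (Y : F)) = (Y' : F) * (z : F) := by
        rw [← hYF']
        field_simp
      rw [e]
      exact B.mul_mem Y'.2 z.2
    · intro i
      rw [map_div₀]
      exact div_le_one_of_le₀ (h i) zero_le
  refine ⟨⟨_, hx⟩, Subtype.ext ?_⟩
  show (z : F) = (Y : F) * ((z : F) / (Y : F))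
  field_simp

/-- consequence of (S1) + discreteness: if `Y` is a unit for all `v j`, `j ≠ i`, and `v i Y = v i ν ^ N` with `ν` a uniformiser of `v i`,
then `Y ∈ P → p i ≤ P` for every prime `P`  (`z ∈ p i`: `v i z ≤ v i ν`, so `z^N = Y b`, `z^N ∈ P`). -/
theorem le_of_mem (V : Vert B v p) {π : B} (hπ0 : π ≠ 0)
    (KR : ∀ z : F, (∃ N : ℕ, (π : F) ^ N * z ∈ B) → (∀ i, v i z ≤ 1) → z ∈ B)
    {Y Y' : B} {N' : ℕ} (hY : Y * Y' = π ^ N') {i : ι} {γ : Γ₀} (hγ : ∀ x : F, v i x < 1 → v i x ≤ γ) {N : ℕ}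
    (hYi : γ ^ N ≤ v i (Y : F)) (hYj : ∀ j, j ≠ i → v j (Y : F) = 1)
    {P : Ideal B} (hP : P.IsPrime) (hYP : Y ∈ P) : p i ≤ P := by
  intro z hz
  have hz1 : v i (z : F) ≤ γ := hγ _ ((V.mem_p i z).1 hz)
  obtain ⟨b, hb⟩ := div_mem (v := v) hπ0 KR hY (z := z ^ N) (by
    intro j
    by_cases hj : j = i
    · subst hj
      refine le_trans ?_ hYi
      rw [SubmonoidClass.coe_pow, map_pow]
      exact pow_le_pow_left₀ zero_le hz1 N
    · rw [hYj j hj]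
      exact V.le_one j _)
  refine hP.mem_of_pow_mem N ?_
  rw [hb]
  exact P.mul_mem_right b hYP

/-- two branches are disjoint along `a = 0` if some `z ∈ B` is `≡ 1` on the first and `z^k ≡ a^N` on the second. -/
theorem not_le_of_sep (V : Vert B v p) {P : Ideal B} (hP : P.IsPrime) {i j : ι} {z a : B} {k N : ℕ} (hN : 0 < N)
    (ha : a ∈ P) (hi : v i ((z : F) - 1) < 1) (hj : v j ((z : F) ^ k - (a : F) ^ N) < 1) :
    ¬ (p i ≤ P ∧ p j ≤ P) := by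
  rintro ⟨hpi, hpj⟩
  have h1 : z - 1 ∈ P := hpi ((V.mem_p i (z - 1)).2 (by simpa using hi))
  have h2 : z ^ k - a ^ N ∈ P := hpj ((V.mem_p j (z ^ k - a ^ N)).2 (by simpa using hj))
  have h3 : a ^ N ∈ P := P.pow_mem_of_mem ha N hN
  have h4 : z ^ k ∈ P := by
    have := P.add_mem h2 h3
    rwa [sub_add_cancel] at this
  have h5 : z ∈ P := hP.mem_of_pow_mem k h4
  have h6 : (1 : B) ∈ P := by
    have := P.sub_mem h5 h1
    rwa [sub_sub_cancel] at this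
  exact hP.ne_top ((Ideal.eq_top_iff_one P).2 h6)

/-- **(S5)** three branches `o m z`; `z₁ ≡ (1, *, *)`, `z₂ ≡ (*, *, 1)` with `z₁^2 ≡ s^N` at `m`, `z₁ ≡ s^N` at `z`, and symmetrically.
Then every prime `P ∋ s` lies on at most one branch.  (four applications of `not_le_of_sep`.) -/
theorem one_branch (V : Vert B v p) {o m z : ι} (h3 : ∀ i, i = o ∨ i = m ∨ i = z) {s z₁ z₂ : B} {N : ℕ} (hN : 0 < N)
    (h1o : v o ((z₁ : F) - 1) < 1) (h1m : v m ((z₁ : F) ^ 2 - (s : F) ^ N) < 1)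
    (h1z : v z ((z₁ : F) ^ 1 - (s : F) ^ N) < 1)
    (h2z : v z ((z₂ : F) - 1) < 1) (h2m : v m ((z₂ : F) ^ 2 - (s : F) ^ N) < 1)
    (h2o : v o ((z₂ : F) ^ 1 - (s : F) ^ N) < 1)
    {P : Ideal B} (hP : P.IsPrime) (hs : s ∈ P) (i j : ι) (hi : p i ≤ P) (hj : p j ≤ P) : i = j := by
  have hom : ¬ (p o ≤ P ∧ p m ≤ P) := not_le_of_sep V hP hN hs h1o h1m
  have hoz : ¬ (p o ≤ P ∧ p z ≤ P) := not_le_of_sep V hP hN hs h1o h1z
  have hzm : ¬ (p z ≤ P ∧ p m ≤ P) := not_le_of_sep V hP hN hs h2z h2m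
  rcases h3 i with rfl | rfl | rfl <;> rcases h3 j with rfl | rfl | rfl
  · rfl
  · exact absurd ⟨hi, hj⟩ hom
  · exact absurd ⟨hi, hj⟩ hoz
  · exact absurd ⟨hj, hi⟩ hom
  · rfl
  · exact absurd ⟨hj, hi⟩ hzm
  · exact absurd ⟨hj, hi⟩ hoz
  · exact absurd ⟨hi, hj⟩ hzm
  · rfl

variable [Fintype ι]

/-- **(S4)** `cond_main` when a section `G ≡ s^m` is already known: only the maximal ideals containing `s` matter.
PROOF. `cond_main`; at `P ∌ s` take `φ := G`, `c := s^m ∉ P`, `Val` with `s = 1`, `z = 0`. -/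
theorem cond_main' (V : Vert B v p) {q n : ℕ} (hq : q.Prime) (hqv : ∀ i, v i (q : F) < 1)
    (hn : Nat.Coprime n q) {w : F} (hw : ∀ i, v i (w - 1) < 1) (s : B)
    (hs : ∃ m : ℕ, ∃ G ∈ Lam B n w, ∀ i, v i (G - (s : F) ^ m) < 1)
    (hGL : ∀ P : Ideal B, P.IsMaximal → s ∈ P → (∃ i, p i ≤ P) →
      ∃ φ ∈ Lam B n w, ∃ c : B, c ∉ P ∧ ∀ i, p i ≤ P → Val B (v i) P φ c) :
    ∃ G ∈ Lam B n w, ∀ i, v i (G - 1) < 1 := by
  refine cond_main V hq hqv hn hw fun P hP hex => ?_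
  by_cases hsP : s ∈ P
  · exact hGL P hP hsP hex
  · obtain ⟨m, G, hG, hGs⟩ := hs
    refine ⟨G, hG, s ^ m, fun h => hsP (hP.isPrime.mem_of_pow_mem m h), fun i _ => ?_⟩
    refine ⟨1, (Ideal.ne_top_iff_one P).1 hP.ne_top, 0, P.zero_mem, ?_⟩
    have h5 : ((1 : B) : F) * (G - ((s ^ m : B) : F)) - ((0 : B) : F) = G - (s : F) ^ m := by
      push_cast
      ring
    rw [h5]
    exact hGs i

/-- **THE CHART THEOREM AT INFINITY.**  `B = B_{1/t}`, `s = 1/t`.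
PROOF. `cond_main'`.  At `P ∋ s`, `p i ≤ P`: `PR` + `ns_main` give `φ`, `u = φ^n w ∉ P`; `exists_val` gives `b ∉ P` with `Val B (v i) P φ b`;
any other branch `j` through `P` equals `i` by `ONE`. -/
theorem chart_inf (V : Vert B v p) {π : B} (hπ0 : π ≠ 0)
    (KR : ∀ z : F, (∃ N : ℕ, (π : F) ^ N * z ∈ B) → (∀ i, v i z ≤ 1) → z ∈ B)
    {q n : ℕ} (hq : q.Prime) (hqv : ∀ i, v i (q : F) < 1) (hn : Nat.Coprime n q)
    {w : F} (hw : ∀ i, v i (w - 1) < 1)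
    (HG : ∃ (N m : ℕ) (φ : Fin m → Fin n → F), (∀ k j, φ k j ∈ Lam B n w) ∧
      (∑ k, ∏ j, φ k j) * w = (π : F) ^ N)
    (FG : ∃ (r : ℕ) (g : Fin r → F), (∀ k, g k ∈ Lam B n w) ∧
      ∀ φ ∈ Lam B n w, ∃ b : Fin r → B, φ = ∑ k, (b k : F) * g k)
    (hpr : ∀ j, ∃ ν y : B, y ∉ p j ∧ GenOn B (v j) (p j) ν y)
    (s : B) (hs : ∃ m : ℕ, ∃ G ∈ Lam B n w, ∀ i, v i (G - (s : F) ^ m) < 1)
    (ONE : ∀ P : Ideal B, P.IsMaximal → s ∈ P → ∀ i j, p i ≤ P → p j ≤ P → i = j)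
    (PR : ∀ P : Ideal B, P.IsMaximal → s ∈ P → ∀ i, p i ≤ P → ∃ ν y : B, y ∉ P ∧ GenOn B (v i) (p i) ν y) :
    ∃ G ∈ Lam B n w, ∀ i, v i (G - 1) < 1 := by
  have hn0 : 0 < n := by
    rcases Nat.eq_zero_or_pos n with h | h
    · subst h
      rw [Nat.coprime_zero_left] at hn
      exact absurd hn hq.one_lt.ne'
    · exact h
  have hw1 : ∀ i, v i w = 1 := fun i => val_one_of_sub (v i) (hw i)
  refine cond_main' V hq hqv hn hw s hs fun P hP hsP hex => ?_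
  obtain ⟨i, hi⟩ := hex
  obtain ⟨ν, y, hy, hg⟩ := PR P hP hsP i hi
  obtain ⟨φ, hφ, u, hu, huP⟩ := ns_main V hπ0 KR hn0 hw1 HG FG hpr hP hi hy hg
  obtain ⟨b, hbP, -, -, hval⟩ := exists_val V hP.isPrime hi hn0 (hw i) hu huP
  refine ⟨φ, hφ, b, hbP, fun j hj => ?_⟩
  obtain rfl := ONE P hP hsP i j hi hj
  exact hval

end Fermat.Agent.CAR.NS
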