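import Fermat.Agent.GAL.KL.Defs

/-!
# CAR / NS : abstract commutative algebra of the blocks [NS] and [COND].  Definitions.

`F` a field (in the application `F_K`, the function field of level `q²M'` over `K = Qbar^I`), `B` a subring of
`F` (the normalisation of `O[t]` in `F`), `v i` the finitely many *vertical* valuations, `p i` the corresponding
vertical primes of `B`;  `Lam B n w = {φ | φ ^ n * w ∈ B}`.
-/

set_option autoImplicit false

namespace Fermat.Agent.CAR.NS

open Fermat.Agent.GAL

variable {F Γ₀ ι : Type*} [Field F] [LinearOrderedCommGroupWithZero Γ₀]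

/-- the lattice `{φ | φ ^ n * w ∈ B}` (sections of `O(D)`, `n D = div w`, on `Spec B`). -/
def Lam (B : Subring F) (n : ℕ) (w : F) : Set F := {φ | φ ^ n * w ∈ B}

/-- `B` is integrally closed in `F`; `v i` are rank one valuations, `≤ 1` on `B`, with centre `p i`;
`B ⧸ p i` is a Dedekind domain whose fraction field is the residue field of `v i`; no inclusions between
the `p i`. -/
structure Vert (B : Subring F) (v : ι → Valuation F Γ₀) (p : ι → Ideal B) : Prop where
  ic : ∀ x : F, IsIntegral B x → x ∈ B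
  le_one : ∀ (i : ι) (z : B), v i (z : F) ≤ 1
  mem_p : ∀ (i : ι) (z : B), z ∈ p i ↔ v i (z : F) < 1
  arch : ∀ i, KL.Arch (v i)
  ded : ∀ i, IsDedekindDomain (B ⧸ p i)
  frac : ∀ (i : ι) (x : F), v i x ≤ 1 → ∃ b s : B, s ∉ p i ∧ v i ((s : F) * x - b) < 1
  ne : ∀ i j, i ≠ j → ¬ p j ≤ p i

/-- `ν` is a uniformiser of the valuation `u` and generates the ideal `𝔭` of `B` on the open set `D(y)`. -/
def GenOn (B : Subring F) (u : Valuation F Γ₀) (𝔭 : Ideal B) (ν y : B) : Prop :=
  u (ν : F) < 1 ∧ (∀ x : F, u x < 1 → u x ≤ u (ν : F)) ∧ ∀ z ∈ 𝔭, ∃ b : B, y * z = ν * b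

/-- "the reduction of `φ` along the branch `u` is regular at the closed point `P` and takes there the same value
as `c`". -/
def Val (B : Subring F) (u : Valuation F Γ₀) (P : Ideal B) (φ : F) (c : B) : Prop :=
  ∃ s : B, s ∉ P ∧ ∃ z ∈ P, u ((s : F) * (φ - c) - z) < 1

end Fermat.Agent.CAR.NS
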