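import Fermat.Agent.CAR.NS.Basic

/-!
# CAR / NS : the hypotheses (FG) and (HG) of `ns_main`  (package CAR-NS-8)
-/

set_option autoImplicit false

namespace Fermat.Agent.CAR.NS

open Fermat.Agent.GAL

variable {F Γ₀ ι : Type*} [Field F] [LinearOrderedCommGroupWithZero Γ₀]
  {B : Subring F} {v : ι → Valuation F Γ₀} {p : ι → Ideal B}

/-- (FG) from noetherianity.  PROOF. `ψ := a`: `ψ^n w⁻¹ = a^(n-1) b ∈ B`.  For `φ ∈ Lam`, `(a φ)^n = (a^(n-1) b)(φ^n w) ∈ B`, so
`a φ ∈ B` by `ic`.  `I := {x : B | x / a ∈ Lam}` is an ideal of `B` (`Lam.add_mem`, `Lam.smul_mem`), f.g. by noetherianity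
(`IsNoetherian.noetherian`, `Submodule.fg_iff_exists_fin_generating_family` / `Submodule.mem_span_range_iff_exists_fun`);
divide its generators by `a`. -/
theorem fg_of_noetherian (ic : ∀ x : F, IsIntegral B x → x ∈ B) [IsNoetherianRing B] {n : ℕ} (hn : 0 < n)
    {w : F} {a b : B} (ha : a ≠ 0) (hb : b ≠ 0) (hw : w * b = a) :
    ∃ (r : ℕ) (g : Fin r → F), (∀ k, g k ∈ Lam B n w) ∧
      ∀ φ ∈ Lam B n w, ∃ c : Fin r → B, φ = ∑ k, (c k : F) * g k := by
  have haF : (a : F) ≠ 0 := by simpa using ha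
  let I : Ideal B :=
    { carrier := {x | (x : F) / a ∈ Lam B n w}
      zero_mem' := by
        show ((0 : B) : F) / a ∈ Lam B n w
        simpa using Lam.zero_mem hn w
      add_mem' := by
        intro x y hx hy
        show ((x + y : B) : F) / a ∈ Lam B n w
        rw [Subring.coe_add, add_div]
        exact Lam.add_mem ic hn hx hy
      smul_mem' := by
        intro c x hx
        show ((c • x : B) : F) / a ∈ Lam B n w
        rw [smul_eq_mul, Subring.coe_mul, mul_div_assoc]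
        exact Lam.smul_mem c hx }
  obtain ⟨r, x, hx⟩ := Submodule.fg_iff_exists_fin_generating_family.mp (IsNoetherian.noetherian I)
  refine ⟨r, fun k => (x k : F) / a, fun k => ?_, fun φ hφ => ?_⟩
  · have h1 : x k ∈ I := hx ▸ Submodule.subset_span ⟨k, rfl⟩
    exact h1
  · have h1 : (a : F) * φ ∈ B := by
      refine mem_of_pow_mem ic hn ?_
      have h2 : ((a : F) * φ) ^ n = (a : F) ^ (n - 1) * b * (φ ^ n * w) := by
        obtain ⟨m, rfl⟩ : ∃ m, n = m + 1 := ⟨n - 1, by omega⟩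
        rw [Nat.add_sub_cancel, mul_pow, pow_succ (a : F) m]
        nth_rewrite 2 [← hw]
        ring
      rw [h2]
      exact B.mul_mem (B.mul_mem (B.pow_mem a.2 _) b.2) hφ
    have h2 : (⟨_, h1⟩ : B) ∈ I := by
      show ((a : F) * φ) / a ∈ Lam B n w
      rwa [mul_div_cancel_left₀ _ haF]
    rw [← hx, Submodule.mem_span_range_iff_exists_fun] at h2
    obtain ⟨c, hc⟩ := h2
    refine ⟨c, ?_⟩
    have h3 : ((∑ i, c i • x i : B) : F) = (a : F) * φ := congrArg Subtype.val hc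
    have h4 : φ = ((a : F) * φ) / a := by rw [mul_div_cancel_left₀ _ haF]
    rw [h4, ← h3, AddSubmonoidClass.coe_finsetSum, Finset.sum_div]
    refine Finset.sum_congr rfl fun k _ => ?_
    rw [smul_eq_mul, Subring.coe_mul, mul_div_assoc]

/-- (HG) from the generic fibre: it suffices to have the identity with `φ k j ^ n * w ∈ B[1/π]`.
PROOF. choose `a` with `π^a (φ k j ^ n w) ∈ B` for all `k, j` (max); `φ' k j := π^a φ k j ∈ Lam`
(`(π^a φ)^n w = π^(a(n-1)) π^a φ^n w`, `n ≥ 1`); `∑ ∏ φ' * w = π^(a n) * π^N₀`. -/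
theorem hg_of_generic {π : B} {n : ℕ} (hn : 0 < n) {w : F} {N₀ m : ℕ} (φ : Fin m → Fin n → F)
    (hφ : ∀ k j, ∃ a : ℕ, (π : F) ^ a * (φ k j ^ n * w) ∈ B)
    (h : (∑ k, ∏ j, φ k j) * w = (π : F) ^ N₀) :
    ∃ (N m : ℕ) (φ : Fin m → Fin n → F), (∀ k j, φ k j ∈ Lam B n w) ∧
      (∑ k, ∏ j, φ k j) * w = (π : F) ^ N := by
  choose a ha using hφ
  set A : ℕ := Finset.univ.sup fun k => Finset.univ.sup fun j => a k j with hA
  have hle : ∀ k j, a k j ≤ A := fun k j =>
    (Finset.le_sup (f := fun j => a k j) (Finset.mem_univ j)).trans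
      (Finset.le_sup (f := fun k => Finset.univ.sup fun j => a k j) (Finset.mem_univ k))
  refine ⟨A * n + N₀, m, fun k j => (π : F) ^ A * φ k j, fun k j => ?_, ?_⟩
  · show ((π : F) ^ A * φ k j) ^ n * w ∈ B
    have h1 : ((π : F) ^ A * φ k j) ^ n * w
        = (π : F) ^ (A * n - a k j) * ((π : F) ^ a k j * (φ k j ^ n * w)) := by
      have h2 : a k j ≤ A * n := (hle k j).trans (Nat.le_mul_of_pos_right A hn)
      rw [← mul_assoc, ← pow_add, Nat.sub_add_cancel h2, mul_pow, ← pow_mul]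
      ring
    rw [h1]
    exact B.mul_mem (B.pow_mem π.2 _) (ha k j)
  · have h1 : ∀ k, ∏ j, ((π : F) ^ A * φ k j) = (π : F) ^ (A * n) * ∏ j, φ k j := by
      intro k
      rw [Finset.prod_mul_distrib, Finset.prod_const, Finset.card_univ, Fintype.card_fin, ← pow_mul]
    simp only [h1]
    rw [← Finset.mul_sum, mul_assoc, h, ← pow_add]

end Fermat.Agent.CAR.NS
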