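import Fermat.Agent.CAR.NS.Asm

/-!
# CAR / NS / ASM-abs : the hypotheses `hpr`, `PR` of the chart theorems for three branches `o, m, z`
(multiplicities `1, e, 1`)   (package CAR-ASM-3)
-/

set_option autoImplicit false

namespace Fermat.Agent.CAR.NS

open Fermat.Agent.GAL

variable {F Γ₀ ι : Type*} [Field F] [LinearOrderedCommGroupWithZero Γ₀] [Fintype ι]
  {B : Subring F} {v : ι → Valuation F Γ₀} {p : ι → Ideal B}

/-- discreteness data for three branches: `π` is a uniformiser of `v o`, `v z`; `ν₀ ∈ B` is a uniformiser of `v m`, `v m ν₀ ^ e = v m π`. -/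
structure Disc3 (B : Subring F) (v : ι → Valuation F Γ₀) (o m z : ι) (π ν₀ : B) (e : ℕ) : Prop where
  h3 : ∀ i, i = o ∨ i = m ∨ i = z
  πo : v o (π : F) < 1
  πz : v z (π : F) < 1
  uo : ∀ x : F, v o x < 1 → v o x ≤ v o (π : F)
  uz : ∀ x : F, v z x < 1 → v z x ≤ v z (π : F)
  e0 : 0 < e
  νm : v m (ν₀ : F) < 1
  um : ∀ x : F, v m x < 1 → v m x ≤ v m (ν₀ : F)
  νe : v m (ν₀ : F) ^ e = v m (π : F)

/-- hypothesis `hpr` (`genOn_generic` three times: `ν = π, e = 1` at `o`, `z`; `ν = ν₀` at `m`). -/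
theorem hpr_of_disc3 (V : Vert B v p) {π : B} (hπ0 : π ≠ 0)
    (KR : ∀ z : F, (∃ N : ℕ, (π : F) ^ N * z ∈ B) → (∀ i, v i z ≤ 1) → z ∈ B)
    {o m z : ι} {ν₀ : B} {e : ℕ} (D : Disc3 B v o m z π ν₀ e) :
    ∀ j, ∃ ν y : B, y ∉ p j ∧ GenOn B (v j) (p j) ν y := by
  intro j
  rcases D.h3 j with h | h | h
  · rw [h]
    obtain ⟨y, hy, hg⟩ := genOn_generic V hπ0 KR (j := o) (ν := π) (e := 1) one_pos D.πo D.uo
      (pow_one _)
    exact ⟨π, y, hy, hg⟩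
  · rw [h]
    obtain ⟨y, hy, hg⟩ := genOn_generic V hπ0 KR (j := m) (ν := ν₀) (e := e) D.e0 D.νm D.um D.νe
    exact ⟨ν₀, y, hy, hg⟩
  · rw [h]
    obtain ⟨y, hy, hg⟩ := genOn_generic V hπ0 KR (j := z) (ν := π) (e := 1) one_pos D.πz D.uz
      (pow_one _)
    exact ⟨π, y, hy, hg⟩

/-- hypothesis `PR` of `chart_main` (chart `t`).
* `P` on `o` only or on `z` only: `genOn_pi`;
* `P` on `m` only: `PRm` (export (E-md) of the count [P1]);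
* `P` on two branches: then on all three (`INC`), and `PRoz` (export of TH1/Gen.lean) applies. -/
theorem pr_of_cases (V : Vert B v p) {π : B} (hπ0 : π ≠ 0)
    (KR : ∀ z : F, (∃ N : ℕ, (π : F) ^ N * z ∈ B) → (∀ i, v i z ≤ 1) → z ∈ B)
    {o m z : ι} {ν₀ : B} {e : ℕ} (D : Disc3 B v o m z π ν₀ e)
    (INC : ∀ P : Ideal B, P.IsMaximal → ∀ i j, i ≠ j → p i ≤ P → p j ≤ P → ∀ l, p l ≤ P)
    (PRm : ∀ P : Ideal B, P.IsMaximal → p m ≤ P → ¬ p o ≤ P → ¬ p z ≤ P →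
      ∃ ν y : B, y ∉ P ∧ GenOn B (v m) (p m) ν y)
    (PRoz : ∀ P : Ideal B, P.IsMaximal → p o ≤ P → p z ≤ P → ∃ ν y : B, y ∉ P ∧ GenOn B (v o) (p o) ν y) :
    ∀ P : Ideal B, P.IsMaximal → (∃ i, p i ≤ P) →
      ∃ (i : ι) (ν y : B), p i ≤ P ∧ y ∉ P ∧ GenOn B (v i) (p i) ν y := by
  rintro P hP ⟨i, hi⟩
  by_cases ho : p o ≤ P
  · by_cases hz : p z ≤ P
    · obtain ⟨ν, y, hy, hg⟩ := PRoz P hP ho hz
      exact ⟨o, ν, y, ho, hy, hg⟩
    · obtain ⟨y, hy, hg⟩ := genOn_pi V hπ0 KR hP.isPrime D.πo D.uo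
        (fun j hj hjP => hz (INC P hP o j hj.symm ho hjP z))
      exact ⟨o, π, y, ho, hy, hg⟩
  · by_cases hz : p z ≤ P
    · obtain ⟨y, hy, hg⟩ := genOn_pi V hπ0 KR hP.isPrime D.πz D.uz
        (fun j hj hjP => ho (INC P hP z j hj.symm hz hjP o))
      exact ⟨z, π, y, hz, hy, hg⟩
    · have hm : p m ≤ P := by
        rcases D.h3 i with h | h | h
        · exact absurd (h ▸ hi) ho
        · exact h ▸ hi
        · exact absurd (h ▸ hi) hz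
      obtain ⟨ν, y, hy, hg⟩ := PRm P hP hm ho hz
      exact ⟨m, ν, y, hm, hy, hg⟩

/-- hypothesis `PR` of `chart_inf` (chart `1/t`): `genOn_pi` at `o`, `z` (the other branches do not pass through `P` by `ONE`), `PRm` at `m`. -/
theorem pr_inf_of_cases (V : Vert B v p) {π : B} (hπ0 : π ≠ 0)
    (KR : ∀ z : F, (∃ N : ℕ, (π : F) ^ N * z ∈ B) → (∀ i, v i z ≤ 1) → z ∈ B)
    {o m z : ι} {ν₀ : B} {e : ℕ} (D : Disc3 B v o m z π ν₀ e) (s : B)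
    (ONE : ∀ P : Ideal B, P.IsMaximal → s ∈ P → ∀ i j, p i ≤ P → p j ≤ P → i = j)
    (PRm : ∀ P : Ideal B, P.IsMaximal → s ∈ P → p m ≤ P → ∃ ν y : B, y ∉ P ∧ GenOn B (v m) (p m) ν y) :
    ∀ P : Ideal B, P.IsMaximal → s ∈ P → ∀ i, p i ≤ P → ∃ ν y : B, y ∉ P ∧ GenOn B (v i) (p i) ν y := by
  intro P hP hs i hi
  rcases D.h3 i with h | h | h
  · rw [h] at hi ⊢
    obtain ⟨y, hy, hg⟩ := genOn_pi V hπ0 KR hP.isPrime D.πo D.uo
      (fun j hj hjP => hj (ONE P hP hs j o hjP hi))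
    exact ⟨π, y, hy, hg⟩
  · rw [h] at hi ⊢
    exact PRm P hP hs hi
  · rw [h] at hi ⊢
    obtain ⟨y, hy, hg⟩ := genOn_pi V hπ0 KR hP.isPrime D.πz D.uz
      (fun j hj hjP => hj (ONE P hP hs j z hjP hi))
    exact ⟨π, y, hy, hg⟩

end Fermat.Agent.CAR.NS
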