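import Fermat.Agent.CAR.NS.Basic

/-!
# CAR / NS : criteria for `GenOn`  (package CAR-NS-2)
-/

set_option autoImplicit false

namespace Fermat.Agent.CAR.NS

open Fermat.Agent.GAL

variable {F Γ₀ ι : Type*} [Field F] [LinearOrderedCommGroupWithZero Γ₀] [Fintype ι]
  {B : Subring F} {v : ι → Valuation F Γ₀} {p : ι → Ideal B}

/-- **Criterion for a local generator.**  `π ∈ B` (a uniformiser of the base), `(KR)`: `B = B[1/π] ∩ ⋂ O_(v j)`.
If `ν ∈ B` is a uniformiser for `v i`, a unit for the other branches through `P`, and has no horizontal part near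
`P` (`ν β = y₀ π^N`, `y₀ ∉ P`), then `ν` generates `p i` near `P`.
PROOF. `S := {j | ¬ p j ≤ P}`; `exists_notMem_val_le` with `γ j := v j ν` (`ν ≠ 0` because `y₀ π^N ≠ 0`) gives
`δ ∉ P` with `v j δ ≤ v j ν` on `S`.  `y := y₀ δ`.  For `z ∈ p i` put `x := y z / ν`: `π^N x = δ z β ∈ B`;
`v i x ≤ 1` since `v i z ≤ v i ν`; `v j x ≤ 1` for `j ∈ S` by the choice of `δ`; for `j ∉ S`, `j ≠ i`, `v j ν = 1`. -/
theorem genOn_of_dvd (V : Vert B v p) {π : B} (hπ0 : π ≠ 0)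
    (KR : ∀ z : F, (∃ N : ℕ, (π : F) ^ N * z ∈ B) → (∀ i, v i z ≤ 1) → z ∈ B)
    {P : Ideal B} (hP : P.IsPrime) {i : ι} {ν : B} (hν1 : v i (ν : F) < 1)
    (hν : ∀ x : F, v i x < 1 → v i x ≤ v i (ν : F))
    (hoth : ∀ j, j ≠ i → p j ≤ P → v j (ν : F) = 1)
    {β y₀ : B} {N : ℕ} (hy₀ : y₀ ∉ P) (hdvd : ν * β = y₀ * π ^ N) :
    ∃ y : B, y ∉ P ∧ GenOn B (v i) (p i) ν y := by
  classical
  have hν0 : ν ≠ 0 := by
    rintro rfl
    rw [zero_mul] at hdvd
    rcases mul_eq_zero.1 hdvd.symm with h | h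
    · exact hy₀ (h ▸ P.zero_mem)
    · exact hπ0 (eq_zero_of_pow_eq_zero h)
  have hνF : (ν : F) ≠ 0 := fun h => hν0 (Subtype.ext h)
  obtain ⟨δ, hδP, hδ⟩ := exists_notMem_val_le V hP (Finset.univ.filter fun j => ¬ p j ≤ P)
    (fun j hj => (Finset.mem_filter.1 hj).2) (fun j => v j (ν : F))
    (fun j _ => (v j).ne_zero_iff.2 hνF)
  refine ⟨y₀ * δ, fun h => (hP.mem_or_mem h).elim hy₀ hδP, hν1, hν, fun z hz => ?_⟩
  have hdvdF : (ν : F) * β = y₀ * (π : F) ^ N := by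
    have := congrArg (Subtype.val) hdvd
    simpa using this
  have hx : ((y₀ : F) * δ * z) / ν ∈ B := by
    refine KR _ ⟨N, ?_⟩ fun j => ?_
    · have h1 : (π : F) ^ N * (((y₀ : F) * δ * z) / ν) = β * δ * z := by
        rw [eq_comm, ← mul_div_assoc, eq_div_iff hνF]
        calc (β : F) * δ * z * ν = ((ν : F) * β) * (δ * z) := by ring
          _ = (π : F) ^ N * ((y₀ : F) * δ * z) := by rw [hdvdF]; ring
      rw [h1]
      exact (β * δ * z).2
    · have hpos : 0 < v j (ν : F) := zero_lt_iff.2 ((v j).ne_zero_iff.2 hνF)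
      rw [map_div₀, div_le_one₀ hpos, map_mul, map_mul]
      by_cases hji : j = i
      · subst hji
        have h1 : v j (z : F) ≤ v j (ν : F) := hν _ ((V.mem_p j z).1 hz)
        calc v j (y₀ : F) * v j (δ : F) * v j (z : F) ≤ 1 * 1 * v j (ν : F) :=
              mul_le_mul' (mul_le_mul' (V.le_one j y₀) (V.le_one j δ)) h1
          _ = v j (ν : F) := by rw [one_mul, one_mul]
      · by_cases hjP : p j ≤ P
        · rw [hoth j hji hjP]
          calc v j (y₀ : F) * v j (δ : F) * v j (z : F) ≤ 1 * 1 * 1 :=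
                mul_le_mul' (mul_le_mul' (V.le_one j y₀) (V.le_one j δ)) (V.le_one j z)
            _ = 1 := by rw [one_mul, one_mul]
        · have h1 := hδ j (Finset.mem_filter.2 ⟨Finset.mem_univ j, hjP⟩)
          calc v j (y₀ : F) * v j (δ : F) * v j (z : F) ≤ 1 * v j (ν : F) * 1 :=
                mul_le_mul' (mul_le_mul' (V.le_one j y₀) h1) (V.le_one j z)
            _ = v j (ν : F) := by rw [one_mul, mul_one]
  refine ⟨⟨_, hx⟩, Subtype.ext ?_⟩
  show (y₀ : F) * δ * z = ν * (((y₀ : F) * δ * z) / ν)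
  rw [mul_div_cancel₀ _ hνF]

/-- special case `ν = π`: at a point lying on one component only, of multiplicity one. -/
theorem genOn_pi (V : Vert B v p) {π : B} (hπ0 : π ≠ 0)
    (KR : ∀ z : F, (∃ N : ℕ, (π : F) ^ N * z ∈ B) → (∀ i, v i z ≤ 1) → z ∈ B)
    {P : Ideal B} (hP : P.IsPrime) {i : ι} (hπ1 : v i (π : F) < 1)
    (hπ : ∀ x : F, v i x < 1 → v i x ≤ v i (π : F)) (hoth : ∀ j, j ≠ i → ¬ p j ≤ P) :
    ∃ y : B, y ∉ P ∧ GenOn B (v i) (p i) π y :=
  genOn_of_dvd V hπ0 KR hP hπ1 hπ (fun j hj hjP => absurd hjP (hoth j hj))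
    (β := 1) (y₀ := 1) (N := 1) ((Ideal.ne_top_iff_one P).1 hP.ne_top) (by rw [mul_one, one_mul, pow_one])

/-- `GenOn` near a closed point gives `GenOn` at the generic point of the component. -/
theorem GenOn.notMem_of_le {P : Ideal B} {i : ι} (hi : p i ≤ P) {y : B} (hy : y ∉ P) : y ∉ p i :=
  fun h => hy (hi h)

end Fermat.Agent.CAR.NS
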