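import Fermat.Agent.CAR.NS.Cyc
import Fermat.Agent.CAR.NS.Gen

/-!
# CAR / NS : the main theorem `ns_main`  (package CAR-NS-7)

"`Lam` is invertible near every closed point `P` through which ONE vertical prime is principal, and its generator
`φ` satisfies: `φ^n w` is a unit at `P`."
-/

set_option autoImplicit false

namespace Fermat.Agent.CAR.NS

open Fermat.Agent.GAL

variable {F Γ₀ ι : Type*} [Field F] [LinearOrderedCommGroupWithZero Γ₀] [Fintype ι]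
  {B : Subring F} {v : ι → Valuation F Γ₀} {p : ι → Ideal B}

/-- (Step 4) PROOF. `u := φ₀^n w ∈ B`.  From `HG` and `d φ k j = b k j φ₀`: `d^n π^N = (∑ k ∏ j b k j) u =: β u`; so `u ≠ 0`.
* `p j ≤ P`: `hval j` gives `ψ ∈ Lam`, `v j ψ = 1`, `d ψ = b φ₀`, `v j d = 1` (`d ∉ P ⊇ p j`), so
  `1 = v j b * v j φ₀ ≤ v j φ₀ ≤ 1`; hence `v j u = 1`.
* `S := {j | ¬ p j ≤ P}`: `exists_notMem_val_le` with `γ j = v j u` gives `δ ∉ P`, `v j δ ≤ v j u` on `S`.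
`z := δ d^n / u`: `π^N z = δ β ∈ B`, `v j z ≤ 1` for all `j`; so `z ∈ B` by `KR`, and `z u = δ d^n ∉ P`: `u ∉ P`. -/
theorem unit_of_cyclic (V : Vert B v p) {π : B} (hπ0 : π ≠ 0)
    (KR : ∀ z : F, (∃ N : ℕ, (π : F) ^ N * z ∈ B) → (∀ i, v i z ≤ 1) → z ∈ B)
    {n : ℕ} (hn : 0 < n) {w : F} (hw : ∀ i, v i w = 1)
    (HG : ∃ (N m : ℕ) (φ : Fin m → Fin n → F), (∀ k j, φ k j ∈ Lam B n w) ∧
      (∑ k, ∏ j, φ k j) * w = (π : F) ^ N)
    (hval : ∀ j, ∃ ψ ∈ Lam B n w, v j ψ = 1)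
    {P : Ideal B} (hP : P.IsPrime) {φ₀ : F} (hφ₀ : φ₀ ∈ Lam B n w) {d : B} (hd : d ∉ P)
    (hcyc : ∀ φ ∈ Lam B n w, ∃ b : B, (d : F) * φ = b * φ₀) :
    ∃ u : B, (u : F) = φ₀ ^ n * w ∧ u ∉ P := by
  classical
  obtain ⟨N, m, φ, hφL, hφ⟩ := HG
  have hπF : (π : F) ≠ 0 := fun h => hπ0 (Subtype.ext h)
  have hd0 : (d : F) ≠ 0 := by
    intro h
    apply hd
    have : d = 0 := Subtype.ext h
    rw [this]
    exact P.zero_mem
  have hb : ∀ k j, ∃ b : B, (d : F) * φ k j = b * φ₀ := fun k j => hcyc _ (hφL k j)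
  choose b hb using hb
  set u : F := φ₀ ^ n * w with hu
  set β : B := ∑ k, ∏ j, b k j with hβ
  have hkey : (d : F) ^ n * (π : F) ^ N = (β : F) * u := by
    have h1 : ∀ k, (d : F) ^ n * ∏ j, φ k j = (∏ j, (b k j : F)) * φ₀ ^ n := by
      intro k
      have h2 : ∏ j, ((d : F) * φ k j) = (d : F) ^ n * ∏ j, φ k j := by
        rw [Finset.prod_mul_distrib, Finset.prod_const, Finset.card_univ, Fintype.card_fin]
      have h3 : ∏ j, ((b k j : F) * φ₀) = (∏ j, (b k j : F)) * φ₀ ^ n := by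
        rw [Finset.prod_mul_distrib, Finset.prod_const, Finset.card_univ, Fintype.card_fin]
      rw [← h2, ← h3]
      exact Finset.prod_congr rfl fun j _ => hb k j
    have h4 : (β : F) = ∑ k, ∏ j, (b k j : F) := by
      rw [hβ]
      push_cast
      rfl
    rw [← hφ, ← mul_assoc, Finset.mul_sum, Finset.sum_congr rfl fun k _ => h1 k,
      ← Finset.sum_mul, ← h4, hu, mul_assoc]
  have hu0 : u ≠ 0 := by
    intro h0
    rw [h0, mul_zero] at hkey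
    exact mul_ne_zero (pow_ne_zero _ hd0) (pow_ne_zero _ hπF) hkey
  -- branches through `P`
  have hthr : ∀ j, p j ≤ P → v j u = 1 := by
    intro j hj
    obtain ⟨ψ, hψL, hψ⟩ := hval j
    obtain ⟨c, hc⟩ := hcyc ψ hψL
    have hdj : v j (d : F) = 1 := (V.notMem_iff j d).1 fun h => hd (hj h)
    have h1 : v j (c : F) * v j φ₀ = 1 := by
      rw [← map_mul, ← hc, map_mul, hdj, hψ, one_mul]
    have h2 : v j φ₀ ≤ 1 := Lam.val_le_one V hn (hw j) hφ₀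
    have h3 : (1 : Γ₀) ≤ v j φ₀ := by
      rw [← h1]
      exact mul_le_of_le_one_left' (V.le_one j c)
    rw [hu, map_mul, map_pow, le_antisymm h2 h3, one_pow, hw j, one_mul]
  obtain ⟨δ, hδ, hδS⟩ := exists_notMem_val_le V hP (Finset.univ.filter fun j => ¬ p j ≤ P)
    (fun j hj => (Finset.mem_filter.1 hj).2) (fun j => v j u)
    (fun j _ => (Valuation.ne_zero_iff _).2 hu0)
  have hz : (δ : F) * (d : F) ^ n / u ∈ B := by
    refine KR _ ⟨N, ?_⟩ fun j => ?_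
    · have : (π : F) ^ N * ((δ : F) * (d : F) ^ n / u) = ((δ * β : B) : F) := by
        rw [Subring.coe_mul]
        rw [eq_comm, mul_div_assoc', eq_div_iff hu0]
        calc (δ : F) * (β : F) * u = (δ : F) * ((β : F) * u) := by ring
          _ = (δ : F) * ((d : F) ^ n * (π : F) ^ N) := by rw [hkey]
          _ = (π : F) ^ N * ((δ : F) * (d : F) ^ n) := by ring
      rw [this]
      exact (δ * β).2
    · rw [map_div₀, map_mul, map_pow]
      have hdn : v j (d : F) ^ n ≤ 1 := pow_le_one' (V.le_one j d) n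
      by_cases hj : p j ≤ P
      · rw [hthr j hj, div_one]
        exact mul_le_one' (V.le_one j δ) hdn
      · have h1 := hδS j (Finset.mem_filter.2 ⟨Finset.mem_univ j, hj⟩)
        rw [div_le_one₀ (zero_lt_iff.2 ((Valuation.ne_zero_iff _).2 hu0))]
        exact (mul_le_of_le_one_right' hdn).trans h1
  refine ⟨⟨u, hφ₀⟩, rfl, fun huP => ?_⟩
  have h1 : (⟨_, hz⟩ : B) * ⟨u, hφ₀⟩ = δ * d ^ n := by
    apply Subtype.ext
    show (δ : F) * (d : F) ^ n / u * u = ((δ * d ^ n : B) : F)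
    rw [div_mul_cancel₀ _ hu0]
    rfl
  have h2 : δ * d ^ n ∈ P := h1 ▸ P.mul_mem_left _ huP
  rcases hP.mem_or_mem h2 with h3 | h3
  · exact hδ h3
  · exact hd (hP.mem_of_pow_mem _ h3)

/-- **Theorem NS.**  PROOF: `HG` gives a nonzero element of `Lam` (`π^N ≠ 0`); `exists_val_one` (with `hpr`) gives `hval`;
`exists_cyclic`, then `unit_of_cyclic`. -/
theorem ns_main (V : Vert B v p) {π : B} (hπ0 : π ≠ 0)
    (KR : ∀ z : F, (∃ N : ℕ, (π : F) ^ N * z ∈ B) → (∀ i, v i z ≤ 1) → z ∈ B)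
    {n : ℕ} (hn : 0 < n) {w : F} (hw : ∀ i, v i w = 1)
    (HG : ∃ (N m : ℕ) (φ : Fin m → Fin n → F), (∀ k j, φ k j ∈ Lam B n w) ∧
      (∑ k, ∏ j, φ k j) * w = (π : F) ^ N)
    (FG : ∃ (r : ℕ) (g : Fin r → F), (∀ k, g k ∈ Lam B n w) ∧
      ∀ φ ∈ Lam B n w, ∃ b : Fin r → B, φ = ∑ k, (b k : F) * g k)
    (hpr : ∀ j, ∃ ν y : B, y ∉ p j ∧ GenOn B (v j) (p j) ν y)
    {P : Ideal B} (hP : P.IsMaximal) {i : ι} (hi : p i ≤ P) {ν y : B} (hy : y ∉ P)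
    (hg : GenOn B (v i) (p i) ν y) :
    ∃ φ ∈ Lam B n w, ∃ u : B, (u : F) = φ ^ n * w ∧ u ∉ P := by
  have hπF : (π : F) ≠ 0 := fun h => hπ0 (Subtype.ext h)
  have hne : ∃ φ ∈ Lam B n w, φ ≠ 0 := by
    obtain ⟨N, m, φ, hφL, hφ⟩ := HG
    have h1 : (∑ k, ∏ j, φ k j) ≠ 0 := by
      intro h0
      rw [h0, zero_mul] at hφ
      exact pow_ne_zero N hπF hφ.symm
    obtain ⟨k, -, hk⟩ := Finset.exists_ne_zero_of_sum_ne_zero h1
    exact ⟨φ k ⟨0, hn⟩, hφL _ _, (Finset.prod_ne_zero_iff.1 hk) _ (Finset.mem_univ _)⟩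
  have hval : ∀ j, ∃ ψ ∈ Lam B n w, v j ψ = 1 := by
    intro j
    obtain ⟨ν', y', hy', hg'⟩ := hpr j
    exact exists_val_one V hn (hw j) hy' hg' hne
  obtain ⟨r, g, hgL, FG'⟩ := FG
  obtain ⟨φ₀, hφ₀, -, d, hd, hcyc⟩ := exists_cyclic V hn (hw i) hgL FG' hP hi hy hg (hval i)
  exact ⟨φ₀, hφ₀, unit_of_cyclic V hπ0 KR hn hw HG hval hP.isPrime hφ₀ hd hcyc⟩

end Fermat.Agent.CAR.NS
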