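import Fermat.Agent.CAR.NS.LemA
import Fermat.Agent.CAR.NS.Main

/-!
# CAR / NS : hypothesis (FG) of `ns_main` follows from the other hypotheses  (idea of helper23; packages CAR-FA-1,2,3)

`π^N Lam ⊆ ∑ B φ_k0 ⊆ Lam` by (HG), and `Lam / {φ | v j φ ≤ v j (ν j)^(c j)}` is finitely generated because each step of the filtration by
depth embeds into the noetherian ring `B ⧸ p i`.   No noetherianity of `B`, no bases, no norm bounds.
-/

set_option autoImplicit false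

namespace Fermat.Agent.CAR.NS

open Fermat.Agent.GAL

variable {F Γ₀ ι : Type*} [Field F] [LinearOrderedCommGroupWithZero Γ₀]
  {B : Subring F} {v : ι → Valuation F Γ₀} {p : ι → Ideal B}

/-- sections of depth `≥ γ`. -/
def Dep (B : Subring F) (n : ℕ) (w : F) (v : ι → Valuation F Γ₀) (γ : ι → Γ₀) : Set F :=
  {φ | φ ∈ Lam B n w ∧ ∀ j, v j φ ≤ γ j}

/-- iterated division by the local generator (same induction as in `lemA`): `z_k := y^k z / ν^k ∈ B` for `k ≤ c`.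
(If `ν = 0` and `c > 0` then `z = 0`.) -/
theorem pow_div_mem (V : Vert B v p) {i : ι} {ν y : B} (hg : GenOn B (v i) (p i) ν y) (c : ℕ) {z : B}
    (hz : v i (z : F) ≤ v i (ν : F) ^ c) : ∃ b : B, y ^ c * z = ν ^ c * b := by
  induction c generalizing z with
  | zero => exact ⟨z, by rw [pow_zero, pow_zero]⟩
  | succ c ih =>
    by_cases hν0 : (ν : F) = 0
    · have hz0 : (z : F) = 0 := by
        rw [hν0, map_zero, zero_pow (Nat.succ_ne_zero c)] at hz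
        exact (Valuation.zero_iff _).1 (le_antisymm hz zero_le)
      have hz0' : z = 0 := Subtype.ext hz0
      exact ⟨0, by rw [hz0', mul_zero, mul_zero]⟩
    have hvν0 : v i (ν : F) ≠ 0 := (Valuation.ne_zero_iff _).2 hν0
    have hz1 : v i (z : F) < 1 :=
      hz.trans_lt (pow_lt_one₀ zero_le hg.1 (Nat.succ_ne_zero c))
    obtain ⟨b₁, hb₁⟩ := hg.2.2 z ((V.mem_p i z).2 hz1)
    have hb₁' : (y : F) * (z : F) = (ν : F) * (b₁ : F) := congrArg Subtype.val hb₁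
    have hvb : v i (b₁ : F) ≤ v i (ν : F) ^ c := by
      have h1 : v i (ν : F) * v i (b₁ : F) ≤ v i (ν : F) * v i (ν : F) ^ c := by
        rw [← map_mul, ← hb₁', map_mul, ← pow_succ']
        exact (mul_le_of_le_one_left' (V.le_one i y)).trans hz
      exact (mul_le_mul_iff_right₀ (zero_lt_iff.2 hvν0)).1 h1
    obtain ⟨b₂, hb₂⟩ := ih hvb
    refine ⟨b₂, ?_⟩
    calc y ^ (c + 1) * z = y ^ c * (y * z) := by ring
      _ = ν * (y ^ c * b₁) := by rw [hb₁]; ring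
      _ = ν ^ (c + 1) * b₂ := by rw [hb₂]; ring

/-- a section of the dual lattice which is a unit for `v i`.
PROOF. `φ ≠ 0` in `Lam B n w` ⇒ `φ^(n-1) w ≠ 0` lies in `Lam B n w⁻¹` (`(φ^(n-1) w)^n w⁻¹ = (φ^n w)^(n-1)`); `exists_val_one` for `w⁻¹`. -/
theorem exists_dual (V : Vert B v p) {n : ℕ} (hn : 0 < n) {w : F} {i : ι} (hw : v i w = 1) {ν y : B} (hy : y ∉ p i)
    (hg : GenOn B (v i) (p i) ν y) (hne : ∃ φ ∈ Lam B n w, φ ≠ 0) : ∃ ψ ∈ Lam B n w⁻¹, v i ψ = 1 := by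
  have hw0 : w ≠ 0 := fun h => by
    rw [h, map_zero] at hw
    exact zero_ne_one hw
  obtain ⟨φ, hφ, hφ0⟩ := hne
  have hφ' : φ ^ n * w ∈ B := hφ
  refine exists_val_one V hn (by rw [map_inv₀, hw, inv_one]) hy hg
    ⟨φ ^ (n - 1) * w, ?_, mul_ne_zero (pow_ne_zero _ hφ0) hw0⟩
  show (φ ^ (n - 1) * w) ^ n * w⁻¹ ∈ B
  have e : (φ ^ (n - 1) * w) ^ n * w⁻¹ = (φ ^ n * w) ^ (n - 1) := by
    obtain ⟨m, rfl⟩ : ∃ m, n = m + 1 := ⟨n - 1, (Nat.sub_add_cancel hn).symm⟩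
    rw [Nat.add_sub_cancel, mul_pow, mul_pow, ← pow_mul, ← pow_mul, pow_succ w m, mul_assoc,
      mul_assoc, mul_inv_cancel₀ hw0, mul_one, mul_comm m (m + 1)]
  rw [e]
  exact B.pow_mem hφ' _

/-- `ψ ∈ Lam(w⁻¹)`, `φ ∈ Lam(w)` ⇒ `ψ φ ∈ B`  (`(ψ φ)^n = (ψ^n w⁻¹)(φ^n w)`, `w ≠ 0`; `V.ic`). -/
theorem dual_mul_mem (V : Vert B v p) {n : ℕ} (hn : 0 < n) {w : F} (hw0 : w ≠ 0) {ψ φ : F} (hψ : ψ ∈ Lam B n w⁻¹)
    (hφ : φ ∈ Lam B n w) : ψ * φ ∈ B := by
  refine mem_of_pow_mem V.ic hn ?_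
  have hψ' : ψ ^ n * w⁻¹ ∈ B := hψ
  have hφ' : φ ^ n * w ∈ B := hφ
  have e : (ψ * φ) ^ n = (ψ ^ n * w⁻¹) * (φ ^ n * w) := by
    rw [mul_pow]
    field_simp
  rw [e]
  exact B.mul_mem hψ' hφ'

/-- **one step of the filtration.**
PROOF. `ψ` from `exists_dual`.  For `φ ∈ Dep γ`: `ψ φ ∈ B`, `v i (ψ φ) ≤ v i ν ^ c`, so `y^c ψ φ = ν^c θ(φ)` with `θ(φ) ∈ B` (`pow_div_mem`); if `ν ≠ 0`,
`v i (θ φ) = v i φ / v i ν ^ c` (`v i y = v i ψ = 1`).  `I := {β : B | ∃ φ ∈ Dep γ, y^c ψ φ = ν^c β}` is an ideal of `B` (`Dep γ` is a `B`-module: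
`Lam.add_mem`, `Lam.smul_mem`).  `B ⧸ p i` is noetherian (`V.ded i`), so `I.map (Quotient.mk (p i))` is f.g.: there are `β_1..β_r ∈ I` with
`I ≤ span {β_k} ⊔ p i`; let `g_k ∈ Dep γ` correspond to `β_k`, `S := {g_k}`.  For `φ ∈ Dep γ`: `θ φ = ∑ b_k β_k + ρ`, `ρ ∈ p i`;
`φ' := φ - ∑ b_k g_k ∈ Dep γ` and `y^c ψ φ' = ν^c ρ`, so `v i φ' = v i ν ^ c * v i ρ ≤ v i ν ^ (c+1)` (`hg.2.1`).
(The case `ν = 0`: then `p i = ⊥`-like degenerate situation: `v i x < 1 → x = 0`; if `c = 0` the argument above works verbatim; if `c > 0` then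
`Dep γ = {0}`.) -/
theorem fg_step (V : Vert B v p) {n : ℕ} (hn : 0 < n) {w : F} (hw : ∀ i, v i w = 1) {i : ι} {ν y : B} (hy : y ∉ p i)
    (hg : GenOn B (v i) (p i) ν y) (hne : ∃ φ ∈ Lam B n w, φ ≠ 0) [DecidableEq ι] (γ : ι → Γ₀) (c : ℕ)
    (hγ : γ i = v i (ν : F) ^ c) :
    ∃ S : Finset F, (∀ g ∈ S, g ∈ Lam B n w) ∧ ∀ φ ∈ Dep B n w v γ,
      ∃ φ' ∈ Dep B n w v (Function.update γ i (v i (ν : F) ^ (c + 1))), φ - φ' ∈ Submodule.span B (S : Set F) := by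
  classical
  have hw0 : w ≠ 0 := fun h => by
    have h1 := hw i
    rw [h, map_zero] at h1
    exact zero_ne_one h1
  obtain ⟨ψ, hψ, hψ1⟩ := exists_dual V hn (hw i) hy hg hne
  have hvy : v i (y : F) = 1 := (V.notMem_iff i y).1 hy
  have dep_zero : (0 : F) ∈ Dep B n w v γ :=
    ⟨Lam.zero_mem hn w, fun j => by rw [map_zero]; exact zero_le⟩
  have dep_add : ∀ a b : F, a ∈ Dep B n w v γ → b ∈ Dep B n w v γ → a + b ∈ Dep B n w v γ :=
    fun a b ha hb => ⟨Lam.add_mem V.ic hn ha.1 hb.1,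
      fun j => (Valuation.map_add _ _ _).trans (max_le (ha.2 j) (hb.2 j))⟩
  have dep_smul : ∀ (b : B) (a : F), a ∈ Dep B n w v γ → (b : F) * a ∈ Dep B n w v γ :=
    fun b a ha => ⟨Lam.smul_mem b ha.1, fun j => by
      rw [map_mul]
      exact (mul_le_of_le_one_left' (V.le_one j b)).trans (ha.2 j)⟩
  let I : Ideal B :=
    { carrier := {β | ∃ φ ∈ Dep B n w v γ, (y : F) ^ c * (ψ * φ) = (ν : F) ^ c * (β : F)}
      zero_mem' := ⟨0, dep_zero, by simp⟩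
      add_mem' := by
        rintro a b ⟨φ₁, h1, e1⟩ ⟨φ₂, h2, e2⟩
        refine ⟨φ₁ + φ₂, dep_add _ _ h1 h2, ?_⟩
        rw [Subring.coe_add, mul_add, mul_add, e1, e2, mul_add]
      smul_mem' := by
        rintro b a ⟨φ₁, h1, e1⟩
        refine ⟨(b : F) * φ₁, dep_smul b _ h1, ?_⟩
        rw [smul_eq_mul, Subring.coe_mul]
        linear_combination (b : F) * e1 }
  have hded := V.ded i
  have hfg : (Submodule.span (B ⧸ p i) (Ideal.Quotient.mk (p i) '' (I : Set B))).FG :=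
    IsNoetherian.noetherian _
  obtain ⟨T, hTsub, hTspan⟩ := (Submodule.fg_span_iff_fg_span_finset_subset _).1 hfg
  have hT : ∀ t ∈ T, ∃ (β : B) (g : F), g ∈ Dep B n w v γ ∧
      (y : F) ^ c * (ψ * g) = (ν : F) ^ c * (β : F) ∧ Ideal.Quotient.mk (p i) β = t := by
    intro t ht
    obtain ⟨β, ⟨g, hg1, hg2⟩, hβt⟩ := hTsub ht
    exact ⟨β, g, hg1, hg2, hβt⟩
  choose! β g hβ using hT
  refine ⟨T.image g, ?_, ?_⟩
  · intro x hx
    obtain ⟨t, ht, rfl⟩ := Finset.mem_image.1 hx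
    exact (hβ t ht).1.1
  · intro φ hφ
    have hψφ : ψ * φ ∈ B := dual_mul_mem V hn hw0 hψ hφ.1
    obtain ⟨θ, hθ⟩ := pow_div_mem V hg c (z := ⟨ψ * φ, hψφ⟩) (by
      show v i (ψ * φ) ≤ _
      rw [map_mul, hψ1, one_mul, ← hγ]
      exact hφ.2 i)
    have hθ' : (y : F) ^ c * (ψ * φ) = (ν : F) ^ c * (θ : F) := congrArg Subtype.val hθ
    have hθI : θ ∈ I := ⟨φ, hφ, hθ'⟩
    have hmem : Ideal.Quotient.mk (p i) θ ∈ Submodule.span (B ⧸ p i) (T : Set (B ⧸ p i)) := by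
      rw [← hTspan]
      exact Submodule.subset_span ⟨θ, hθI, rfl⟩
    obtain ⟨a, -, ha⟩ := Submodule.mem_span_finset.1 hmem
    have hlift : ∀ t, ∃ b : B, Ideal.Quotient.mk (p i) b = a t :=
      fun t => Ideal.Quotient.mk_surjective _
    choose b hb using hlift
    have hsum : ∑ t ∈ T, ((-(b t) : B) : F) * g t ∈ Dep B n w v γ :=
      Finset.sum_induction _ (· ∈ Dep B n w v γ) dep_add dep_zero
        (fun t ht => dep_smul _ _ (hβ t ht).1)
    have hφ' := dep_add _ _ hφ hsum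
    have hρ : θ + ∑ t ∈ T, (-(b t) * β t) ∈ p i := by
      rw [← Ideal.Quotient.eq_zero_iff_mem, map_add, map_sum, ← ha, ← Finset.sum_add_distrib]
      refine Finset.sum_eq_zero fun t ht => ?_
      rw [map_mul, map_neg, hb, (hβ t ht).2.2, smul_eq_mul]
      ring
    have e1 : (y : F) ^ c * (ψ * ∑ t ∈ T, ((-(b t) : B) : F) * g t)
        = (ν : F) ^ c * ∑ t ∈ T, ((-(b t) * β t : B) : F) := by
      rw [Finset.mul_sum, Finset.mul_sum, Finset.mul_sum]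
      refine Finset.sum_congr rfl fun t ht => ?_
      have h2 := (hβ t ht).2.1
      rw [Subring.coe_mul]
      linear_combination ((-(b t) : B) : F) * h2
    have e2 : (y : F) ^ c * (ψ * (φ + ∑ t ∈ T, ((-(b t) : B) : F) * g t))
        = (ν : F) ^ c * ((θ + ∑ t ∈ T, (-(b t) * β t) : B) : F) := by
      rw [mul_add, mul_add, hθ', e1, Subring.coe_add, mul_add]
      congr 2
      exact (map_sum B.subtype (fun t => -(b t) * β t) T).symm
    have hvρ : v i ((θ + ∑ t ∈ T, (-(b t) * β t) : B) : F) ≤ v i (ν : F) :=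
      hg.2.1 _ ((V.mem_p i _).1 hρ)
    have hv : v i (φ + ∑ t ∈ T, ((-(b t) : B) : F) * g t) ≤ v i (ν : F) ^ (c + 1) := by
      have h3 := congrArg (v i) e2
      rw [map_mul, map_mul, map_pow, hvy, one_pow, one_mul, hψ1, one_mul, map_mul, map_pow] at h3
      rw [h3, pow_succ]
      exact mul_le_mul_right hvρ _
    refine ⟨φ + ∑ t ∈ T, ((-(b t) : B) : F) * g t, ⟨hφ'.1, fun j => ?_⟩, ?_⟩
    · by_cases hj : j = i
      · subst hj
        rw [Function.update_self]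
        exact hv
      · rw [Function.update_of_ne hj]
        exact hφ'.2 j
    · have e3 : φ - (φ + ∑ t ∈ T, ((-(b t) : B) : F) * g t)
          = -∑ t ∈ T, ((-(b t) : B) : F) * g t := by ring
      rw [e3]
      refine Submodule.neg_mem _ (Submodule.sum_mem _ fun t ht => ?_)
      exact Submodule.smul_mem _ (-(b t))
        (Submodule.subset_span (Finset.mem_coe.2 (Finset.mem_image_of_mem g ht)))

variable [Fintype ι]

/-- **the whole filtration.**  Induction on `∑ j, c j` (or: on `c` via `Function.update`): base `c = 0`: `Dep = Lam` by `Lam.val_le_one`, `S = ∅`;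
step: `fg_step` at `i`, union of the two finsets (`Submodule.span_mono`, `Submodule.add_mem`). -/
theorem fg_chain (V : Vert B v p) {n : ℕ} (hn : 0 < n) {w : F} (hw : ∀ i, v i w = 1) (ν y : ι → B)
    (hy : ∀ j, y j ∉ p j) (hg : ∀ j, GenOn B (v j) (p j) (ν j) (y j)) (hne : ∃ φ ∈ Lam B n w, φ ≠ 0) (c : ι → ℕ) :
    ∃ S : Finset F, (∀ g ∈ S, g ∈ Lam B n w) ∧ ∀ φ ∈ Lam B n w,
      ∃ φ' ∈ Dep B n w v (fun j => v j (ν j : F) ^ c j), φ - φ' ∈ Submodule.span B (S : Set F) := by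
  classical
  induction hs : ∑ j, c j generalizing c with
  | zero =>
    have hc : ∀ j, c j = 0 := fun j => (Finset.sum_eq_zero_iff.mp hs) j (Finset.mem_univ j)
    refine ⟨∅, fun g hg => absurd hg (Finset.notMem_empty g), fun φ hφ => ⟨φ, ⟨hφ, fun j => ?_⟩, ?_⟩⟩
    · show v j φ ≤ v j (ν j : F) ^ c j
      rw [hc j, pow_zero]
      exact Lam.val_le_one V hn (hw j) hφ
    · rw [sub_self]
      exact Submodule.zero_mem _
  | succ s ih =>
    obtain ⟨i, -, hi⟩ : ∃ i ∈ Finset.univ, c i ≠ 0 := by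
      by_contra hcon
      push Not at hcon
      rw [Finset.sum_eq_zero hcon] at hs
      exact Nat.succ_ne_zero s hs.symm
    obtain ⟨S1, hS1, h1⟩ := ih (Function.update c i (c i - 1)) (by
      have h2 := Finset.sum_update_of_mem (Finset.mem_univ i) c (c i - 1)
      have h3 := Finset.add_sum_erase Finset.univ c (Finset.mem_univ i)
      rw [← Finset.sdiff_singleton_eq_erase] at h3
      omega)
    obtain ⟨S2, hS2, h2⟩ := fg_step V hn hw (hy i) (hg i) hne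
      (fun j => v j (ν j : F) ^ (Function.update c i (c i - 1)) j) (c i - 1)
      (by simp only [Function.update_self])
    have hupd : Function.update (fun j => v j (ν j : F) ^ (Function.update c i (c i - 1)) j) i
        (v i (ν i : F) ^ (c i - 1 + 1)) = fun j => v j (ν j : F) ^ c j := by
      funext j
      by_cases hj : j = i
      · subst hj
        rw [Function.update_self, Nat.sub_add_cancel (Nat.pos_of_ne_zero hi)]
      · rw [Function.update_of_ne hj, Function.update_of_ne hj]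
    rw [hupd] at h2
    refine ⟨S1 ∪ S2, fun g hg' => ?_, fun φ hφ => ?_⟩
    · rcases Finset.mem_union.mp hg' with h | h
      · exact hS1 g h
      · exact hS2 g h
    · obtain ⟨φ', hφ', hsub1⟩ := h1 φ hφ
      obtain ⟨φ'', hφ'', hsub2⟩ := h2 φ' hφ'
      refine ⟨φ'', hφ'', ?_⟩
      have e : φ - φ'' = (φ - φ') + (φ' - φ'') := by ring
      rw [e]
      refine Submodule.add_mem _ (Submodule.span_mono ?_ hsub1) (Submodule.span_mono ?_ hsub2)
      · exact Finset.coe_subset.mpr Finset.subset_union_left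
      · exact Finset.coe_subset.mpr Finset.subset_union_right

/-- deep sections are multiples of `π^N`:  `(φ/π^N)^n w ∈ B` by `KR`. -/
theorem dep_subset (V : Vert B v p) {π : B} (hπ0 : π ≠ 0)
    (KR : ∀ z : F, (∃ N : ℕ, (π : F) ^ N * z ∈ B) → (∀ i, v i z ≤ 1) → z ∈ B)
    {n : ℕ} (hn : 0 < n) {w : F} (hw : ∀ i, v i w = 1) (N : ℕ) {γ : ι → Γ₀} (hγ : ∀ j, γ j ≤ v j (π : F) ^ N) {φ : F}
    (hφ : φ ∈ Dep B n w v γ) : ∃ φ₁ ∈ Lam B n w, φ = (π : F) ^ N * φ₁ := by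
  have hπF : (π : F) ≠ 0 := fun h => hπ0 (Subtype.ext h)
  have hπN : (π : F) ^ N ≠ 0 := pow_ne_zero N hπF
  refine ⟨φ / (π : F) ^ N, ?_, by rw [mul_div_cancel₀ _ hπN]⟩
  show (φ / (π : F) ^ N) ^ n * w ∈ B
  refine KR _ ⟨N * n, ?_⟩ fun i => ?_
  · have e : (π : F) ^ (N * n) * ((φ / (π : F) ^ N) ^ n * w) = φ ^ n * w := by
      rw [div_pow, ← pow_mul, ← mul_assoc, mul_div_cancel₀ _ (pow_ne_zero _ hπF)]
    rw [e]
    exact hφ.1
  · rw [map_mul, hw i, mul_one, map_pow, map_div₀, map_pow]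
    refine pow_le_one₀ zero_le ?_
    have h0 : v i (π : F) ^ N ≠ 0 := pow_ne_zero _ ((Valuation.ne_zero_iff (v i)).2 hπF)
    rw [div_le_one₀ (zero_lt_iff.mpr h0)]
    exact (hφ.2 i).trans (hγ i)

/-- `π^N Lam ⊆ ∑_k B φ k 0`:  `π^N φ₁ = ∑_k (φ₁ ∏_{j ≥ 1} φ k j w) φ k 0` and `φ₁ ∏_{j≥1} φ k j * w ∈ B` by `Lam.prod_mul_mem`
(`n = n' + 1`, `Fin.prod_univ_succ`, `Fin.cons φ₁ (tail)`). -/
theorem pow_mul_mem_span (V : Vert B v p) {π : B} {n : ℕ} (hn : 0 < n) {w : F} {N m : ℕ} (φ : Fin m → Fin n → F)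
    (hφ : ∀ k j, φ k j ∈ Lam B n w) (h : (∑ k, ∏ j, φ k j) * w = (π : F) ^ N) {φ₁ : F} (hφ₁ : φ₁ ∈ Lam B n w) :
    (π : F) ^ N * φ₁ ∈ Submodule.span B (Set.range fun k => φ k ⟨0, hn⟩) := by
  classical
  have hb : ∀ k, (∏ j, Function.update (φ k) ⟨0, hn⟩ φ₁ j) * w ∈ B := fun k =>
    Lam.prod_mul_mem V.ic hn _ fun j => by
      by_cases hj : j = ⟨0, hn⟩
      · rw [hj, Function.update_self]
        exact hφ₁
      · rw [Function.update_of_ne hj]
        exact hφ k j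
  have e : (π : F) ^ N * φ₁
      = ∑ k, (⟨_, hb k⟩ : B) • φ k ⟨0, hn⟩ := by
    rw [← h, Finset.sum_mul, Finset.sum_mul]
    refine Finset.sum_congr rfl fun k _ => ?_
    show (∏ j, φ k j) * w * φ₁ = ((∏ j, Function.update (φ k) ⟨0, hn⟩ φ₁ j) * w) * φ k ⟨0, hn⟩
    rw [Finset.prod_update_of_mem (Finset.mem_univ _),
      Finset.prod_eq_mul_prod_sdiff_singleton_of_mem (Finset.mem_univ (⟨0, hn⟩ : Fin n)) (φ k)]
    ring
  rw [e]
  exact Submodule.sum_mem _ fun k _ => Submodule.smul_mem _ _ (Submodule.subset_span ⟨k, rfl⟩)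

/-- **(FG) is automatic.**
PROOF. `choose ν y hy hg using hpr`.  `HG` gives `N, m, φ`, and a nonzero element of `Lam`.  If `ν j = 0` replace the bound: by `V.arch j` (or trivially when
`v j (ν j) = 0`) choose `c j` with `v j (ν j) ^ c j ≤ v j π ^ N` (`π ≠ 0`).  `fg_chain` gives `S`; for `φ ∈ Lam`: `φ - φ' ∈ span S`, `φ' = π^N φ₁` (`dep_subset`)
`∈ span (range (φ · 0))` (`pow_mul_mem_span`).  So `Lam ⊆ span (S ∪ range …)`, a finite subset of `Lam`; enumerate it by `Fin r`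
(`Finset.equivFin`, `Submodule.mem_span_range_iff_exists_fun`; NB `b • g = (b : F) * g` is `Subring.smul_def`/`rfl`). -/
theorem fg_abs (V : Vert B v p) {π : B} (hπ0 : π ≠ 0)
    (KR : ∀ z : F, (∃ N : ℕ, (π : F) ^ N * z ∈ B) → (∀ i, v i z ≤ 1) → z ∈ B)
    {n : ℕ} (hn : 0 < n) {w : F} (hw : ∀ i, v i w = 1)
    (HG : ∃ (N m : ℕ) (φ : Fin m → Fin n → F), (∀ k j, φ k j ∈ Lam B n w) ∧
      (∑ k, ∏ j, φ k j) * w = (π : F) ^ N)
    (hpr : ∀ j, ∃ ν y : B, y ∉ p j ∧ GenOn B (v j) (p j) ν y) :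
    ∃ (r : ℕ) (g : Fin r → F), (∀ k, g k ∈ Lam B n w) ∧
      ∀ φ ∈ Lam B n w, ∃ b : Fin r → B, φ = ∑ k, (b k : F) * g k := by
  classical
  choose ν y hy hg using hpr
  obtain ⟨N, m, φ, hφ, hsum⟩ := HG
  have hπF : (π : F) ≠ 0 := fun h => hπ0 (Subtype.ext h)
  have hne : ∃ φ₀ ∈ Lam B n w, φ₀ ≠ 0 := by
    have h1 : (∑ k, ∏ j, φ k j) ≠ 0 := by
      intro h0
      rw [h0, zero_mul] at hsum
      exact pow_ne_zero N hπF hsum.symm
    obtain ⟨k, -, hk⟩ := Finset.exists_ne_zero_of_sum_ne_zero h1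
    exact ⟨φ k ⟨0, hn⟩, hφ k _, (Finset.prod_ne_zero_iff.1 hk) _ (Finset.mem_univ _)⟩
  have hc : ∀ j, ∃ c : ℕ, v j (ν j : F) ^ c ≤ v j (π : F) ^ N := by
    intro j
    obtain ⟨c, hc⟩ := V.arch j (ν j : F) (hg j).1 (v j (π : F) ^ N)
      (pow_ne_zero _ ((Valuation.ne_zero_iff (v j)).2 hπF))
    exact ⟨c, hc.le⟩
  choose c hc using hc
  obtain ⟨S, hS, hchain⟩ := fg_chain V hn hw ν y hy hg hne c
  obtain ⟨T, hT⟩ : ∃ T : Finset F, T = S ∪ Finset.univ.image (fun k => φ k ⟨0, hn⟩) := ⟨_, rfl⟩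
  have hTL : ∀ g ∈ T, g ∈ Lam B n w := by
    intro g hgT
    rw [hT, Finset.mem_union, Finset.mem_image] at hgT
    rcases hgT with h | ⟨k, -, rfl⟩
    · exact hS g h
    · exact hφ k _
  have hrange : Set.range (fun i : Fin T.card => ((T.equivFin.symm i : T) : F)) = (T : Set F) := by
    ext z
    constructor
    · rintro ⟨i, rfl⟩
      exact (T.equivFin.symm i).2
    · intro hz
      exact ⟨T.equivFin ⟨z, hz⟩, by simp⟩
  refine ⟨T.card, fun i => ((T.equivFin.symm i : T) : F), fun i => hTL _ (T.equivFin.symm i).2, ?_⟩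
  intro φ₀ hφ₀
  obtain ⟨φ', hφ', hsub⟩ := hchain φ₀ hφ₀
  obtain ⟨φ₁, hφ₁, rfl⟩ := dep_subset V hπ0 KR hn hw N hc hφ'
  have h2 := pow_mul_mem_span V hn φ hφ hsum hφ₁
  have h3 : φ₀ ∈ Submodule.span B (T : Set F) := by
    have e : φ₀ = (φ₀ - (π : F) ^ N * φ₁) + (π : F) ^ N * φ₁ := by ring
    rw [e]
    refine Submodule.add_mem _ (Submodule.span_mono ?_ hsub) (Submodule.span_mono ?_ h2)
    · intro z hz
      rw [hT]
      exact Finset.mem_coe.2 (Finset.mem_union_left _ (Finset.mem_coe.1 hz))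
    · rintro z ⟨k, rfl⟩
      rw [hT]
      exact Finset.mem_coe.2 (Finset.mem_union_right _
        (Finset.mem_image.2 ⟨k, Finset.mem_univ _, rfl⟩))
  rw [← hrange, Submodule.mem_span_range_iff_exists_fun] at h3
  obtain ⟨b, hb⟩ := h3
  exact ⟨b, hb.symm⟩

end Fermat.Agent.CAR.NS
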