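import Fermat.Agent.CAR.NS.Asm3

/-!
# CAR / NS / Inc : [INC] incidence of the three branches on the chart `t`  (abstract)

Three branches `o, m, z` (multiplicities `1, e, 1`), four elements `Xo Xo' Xz Xz' ∈ B` with `Xo Xo' = π^N = Xz Xz'`,
values `|Xo| = (|π|^N, 1, 1)`, `|Xz| = (1, 1, |π|^N)`, congruences `Xo ≡ Xz` on `m`, `Xo' ≡ Xz^q` on `o`.
Then a prime `P` of `B` lying on two branches lies on all three.

* `o, m ⊆ P`: `Xo ∈ P`, `Xz ≡ Xo mod p_m`, so `Xz ∈ P` and `le_of_mem` gives `p_z ⊆ P`;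
* `z, m ⊆ P`: symmetric;
* `o, z ⊆ P`: `Y := Xo'/Xz ∈ B` (division trick), `|Y| = (1, |π|^N, 1)`, `Y (Xo Xz) = π^N`, `Y ≡ Xz^(q-1) mod p_o`, `Xz ∈ p_z ⊆ P`,
  so `Y ∈ P` and `le_of_mem` gives `p_m ⊆ P`.
-/

set_option autoImplicit false

namespace Fermat.Agent.CAR.NS

open Fermat.Agent.GAL

variable {F Γ₀ ι : Type*} [Field F] [LinearOrderedCommGroupWithZero Γ₀]
  {B : Subring F} {v : ι → Valuation F Γ₀} {p : ι → Ideal B}

/-- the table of the modular units on the chart `t`. -/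
structure XTab (B : Subring F) (v : ι → Valuation F Γ₀) (o m z : ι) (π : B) (N q : ℕ)
    (Xo Xo' Xz Xz' : B) : Prop where
  N0 : 0 < N
  q2 : 2 ≤ q
  mulo : Xo * Xo' = π ^ N
  mulz : Xz * Xz' = π ^ N
  Xo_o : v o (Xo : F) = v o (π : F) ^ N
  Xo_m : v m (Xo : F) = 1
  Xo_z : v z (Xo : F) = 1
  Xz_o : v o (Xz : F) = 1
  Xz_m : v m (Xz : F) = 1
  Xz_z : v z (Xz : F) = v z (π : F) ^ N
  cm : v m ((Xo : F) - (Xz : F)) < 1
  co : v o ((Xo' : F) - (Xz : F) ^ q) < 1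

theorem Inc_pow_lt_one {γ : Γ₀} (h : γ < 1) {N : ℕ} (hN : 0 < N) : γ ^ N < 1 :=
  pow_lt_one₀ zero_le h hN.ne'

/-- `Xo ∈ P ⇒ p o ≤ P`. -/
theorem XTab.po_le (V : Vert B v p) {π : B} (hπ0 : π ≠ 0)
    (KR : ∀ z : F, (∃ N : ℕ, (π : F) ^ N * z ∈ B) → (∀ i, v i z ≤ 1) → z ∈ B)
    {o m z : ι} {ν₀ : B} {e : ℕ} (D : Disc3 B v o m z π ν₀ e) {N q : ℕ} {Xo Xo' Xz Xz' : B}
    (T : XTab B v o m z π N q Xo Xo' Xz Xz') {P : Ideal B} (hP : P.IsPrime) (h : Xo ∈ P) :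
    p o ≤ P :=
  le_of_mem V hπ0 KR T.mulo (i := o) (γ := v o (π : F)) D.uo (N := N) T.Xo_o.ge
    (fun j hj => by
      rcases D.h3 j with h | h | h
      · exact absurd h hj
      · rw [h]; exact T.Xo_m
      · rw [h]; exact T.Xo_z) hP h

/-- `Xz ∈ P ⇒ p z ≤ P`. -/
theorem XTab.pz_le (V : Vert B v p) {π : B} (hπ0 : π ≠ 0)
    (KR : ∀ z : F, (∃ N : ℕ, (π : F) ^ N * z ∈ B) → (∀ i, v i z ≤ 1) → z ∈ B)
    {o m z : ι} {ν₀ : B} {e : ℕ} (D : Disc3 B v o m z π ν₀ e) {N q : ℕ} {Xo Xo' Xz Xz' : B}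
    (T : XTab B v o m z π N q Xo Xo' Xz Xz') {P : Ideal B} (hP : P.IsPrime) (h : Xz ∈ P) :
    p z ≤ P :=
  le_of_mem V hπ0 KR T.mulz (i := z) (γ := v z (π : F)) D.uz (N := N) T.Xz_z.ge
    (fun j hj => by
      rcases D.h3 j with h | h | h
      · rw [h]; exact T.Xz_o
      · rw [h]; exact T.Xz_m
      · exact absurd h hj) hP h

theorem XTab.Xo_mem (V : Vert B v p) {π : B} {o m z : ι} {ν₀ : B} {e : ℕ}
    (D : Disc3 B v o m z π ν₀ e) {N q : ℕ} {Xo Xo' Xz Xz' : B}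
    (T : XTab B v o m z π N q Xo Xo' Xz Xz') : Xo ∈ p o := by
  rw [V.mem_p, T.Xo_o]
  exact Inc_pow_lt_one D.πo T.N0

theorem XTab.Xz_mem (V : Vert B v p) {π : B} {o m z : ι} {ν₀ : B} {e : ℕ}
    (D : Disc3 B v o m z π ν₀ e) {N q : ℕ} {Xo Xo' Xz Xz' : B}
    (T : XTab B v o m z π N q Xo Xo' Xz Xz') : Xz ∈ p z := by
  rw [V.mem_p, T.Xz_z]
  exact Inc_pow_lt_one D.πz T.N0

theorem XTab.sub_mem (V : Vert B v p) {π : B} {o m z : ι} {N q : ℕ} {Xo Xo' Xz Xz' : B}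
    (T : XTab B v o m z π N q Xo Xo' Xz Xz') : Xo - Xz ∈ p m := by
  rw [V.mem_p]
  exact T.cm

/-- `p o, p z ≤ P ⇒ p m ≤ P`. -/
theorem XTab.pm_le (V : Vert B v p) {π : B} (hπ0 : π ≠ 0)
    (KR : ∀ z : F, (∃ N : ℕ, (π : F) ^ N * z ∈ B) → (∀ i, v i z ≤ 1) → z ∈ B)
    {o m z : ι} {ν₀ : B} {e : ℕ} (D : Disc3 B v o m z π ν₀ e) {N q : ℕ} {Xo Xo' Xz Xz' : B}
    (T : XTab B v o m z π N q Xo Xo' Xz Xz') {P : Ideal B} (hP : P.IsPrime) (ho : p o ≤ P)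
    (hz : p z ≤ P) : p m ≤ P := by
  have hπF : (π : F) ≠ 0 := fun h => hπ0 (Subtype.ext h)
  have hmulo : (Xo : F) * (Xo' : F) = (π : F) ^ N := by
    have := congrArg (fun b : B => (b : F)) T.mulo
    simpa using this
  -- the values of `Xo'`
  have hval : ∀ i, v i (Xo : F) * v i (Xo' : F) = v i (π : F) ^ N := fun i => by
    rw [← map_mul, hmulo, map_pow]
  have Xo'_o : v o (Xo' : F) = 1 := by
    have h := hval o
    rw [T.Xo_o] at h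
    have h0 : v o (π : F) ^ N ≠ 0 := pow_ne_zero _ ((Valuation.ne_zero_iff _).2 hπF)
    exact mul_left_cancel₀ h0 (by rw [h, mul_one])
  have Xo'_m : v m (Xo' : F) = v m (π : F) ^ N := by
    have h := hval m
    rwa [T.Xo_m, one_mul] at h
  have Xo'_z : v z (Xo' : F) = v z (π : F) ^ N := by
    have h := hval z
    rwa [T.Xo_z, one_mul] at h
  -- `Y = Xo' / Xz`
  obtain ⟨Y, hY⟩ := div_mem (v := v) hπ0 KR T.mulz (z := Xo') (by
    intro j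
    rcases D.h3 j with h | h | h
    · rw [h, Xo'_o, T.Xz_o]
    · rw [h, T.Xz_m]; exact V.le_one m _
    · rw [h, Xo'_z, T.Xz_z])
  have hYF : (Xo' : F) = (Xz : F) * (Y : F) := by
    have := congrArg (fun b : B => (b : F)) hY
    simpa using this
  have hvalY : ∀ i, v i (Xo' : F) = v i (Xz : F) * v i (Y : F) := fun i => by
    rw [← map_mul, hYF]
  have Y_o : v o (Y : F) = 1 := by
    have h := hvalY o
    rw [Xo'_o, T.Xz_o, one_mul] at h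
    exact h.symm
  have Y_m : v m (Y : F) = v m (π : F) ^ N := by
    have h := hvalY m
    rw [Xo'_m, T.Xz_m, one_mul] at h
    exact h.symm
  have Y_z : v z (Y : F) = 1 := by
    have h := hvalY z
    rw [Xo'_z, T.Xz_z] at h
    have h0 : v z (π : F) ^ N ≠ 0 := pow_ne_zero _ ((Valuation.ne_zero_iff _).2 hπF)
    exact mul_left_cancel₀ h0 (by rw [← h, mul_one])
  have hYmul : Y * (Xo * Xz) = π ^ N := by
    rw [← T.mulo, hY]
    ring
  -- `Y ≡ Xz^(q-1)` on `o`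
  have hq1 : q = (q - 1) + 1 := by have := T.q2; omega
  have hcong : v o ((Y : F) - (Xz : F) ^ (q - 1)) < 1 := by
    have h := T.co
    have e1 : (Xo' : F) - (Xz : F) ^ q = (Xz : F) * ((Y : F) - (Xz : F) ^ (q - 1)) := by
      rw [hYF]
      conv_lhs => rw [hq1, pow_succ]
      ring
    rwa [e1, map_mul, T.Xz_o, one_mul] at h
  have h1 : Y - Xz ^ (q - 1) ∈ P := ho ((V.mem_p o _).2 (by simpa using hcong))
  have h2 : Xz ∈ P := hz (T.Xz_mem V D)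
  have h3 : Xz ^ (q - 1) ∈ P := P.pow_mem_of_mem h2 _ (by have := T.q2; omega)
  have hYP : Y ∈ P := by
    have := P.add_mem h1 h3
    rwa [sub_add_cancel] at this
  refine le_of_mem V hπ0 KR hYmul (i := m) (γ := v m (ν₀ : F)) D.um (N := e * N) ?_ ?_ hP hYP
  · rw [pow_mul, D.νe, Y_m]
  · intro j hj
    rcases D.h3 j with h | h | h
    · rw [h]; exact Y_o
    · exact absurd h hj
    · rw [h]; exact Y_z

/-- **[INC]** (for prime ideals). -/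
theorem inc_prime (V : Vert B v p) {π : B} (hπ0 : π ≠ 0)
    (KR : ∀ z : F, (∃ N : ℕ, (π : F) ^ N * z ∈ B) → (∀ i, v i z ≤ 1) → z ∈ B)
    {o m z : ι} {ν₀ : B} {e : ℕ} (D : Disc3 B v o m z π ν₀ e) {N q : ℕ} {Xo Xo' Xz Xz' : B}
    (T : XTab B v o m z π N q Xo Xo' Xz Xz') (P : Ideal B) (hP : P.IsPrime) (i j : ι) (hij : i ≠ j)
    (hi : p i ≤ P) (hj : p j ≤ P) (l : ι) : p l ≤ P := by
  -- the three implications
  have hom : p o ≤ P → p m ≤ P → p z ≤ P := fun ho hm => by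
    refine T.pz_le V hπ0 KR D hP ?_
    have h1 : Xo ∈ P := ho (T.Xo_mem V D)
    have h2 : Xo - Xz ∈ P := hm (T.sub_mem V)
    have := P.sub_mem h1 h2
    rwa [sub_sub_cancel] at this
  have hzm : p z ≤ P → p m ≤ P → p o ≤ P := fun hz hm => by
    refine T.po_le V hπ0 KR D hP ?_
    have h1 : Xz ∈ P := hz (T.Xz_mem V D)
    have h2 : Xo - Xz ∈ P := hm (T.sub_mem V)
    have := P.add_mem h2 h1
    rwa [sub_add_cancel] at this
  have hoz : p o ≤ P → p z ≤ P → p m ≤ P := fun ho hz => T.pm_le V hπ0 KR D hP ho hz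
  have hall : p o ≤ P ∧ p m ≤ P ∧ p z ≤ P := by
    rcases D.h3 i with rfl | rfl | rfl <;> rcases D.h3 j with rfl | rfl | rfl
    · exact absurd rfl hij
    · exact ⟨hi, hj, hom hi hj⟩
    · exact ⟨hi, hoz hi hj, hj⟩
    · exact ⟨hj, hi, hom hj hi⟩
    · exact absurd rfl hij
    · exact ⟨hzm hj hi, hi, hj⟩
    · exact ⟨hj, hoz hj hi, hi⟩
    · exact ⟨hzm hi hj, hj, hi⟩
    · exact absurd rfl hij
  rcases D.h3 l with rfl | rfl | rfl
  · exact hall.1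
  · exact hall.2.1
  · exact hall.2.2

/-- **[INC]** in the shape of `pr_of_cases`, `proz_of_export`, `CAR.Main.top_abs`. -/
theorem inc (V : Vert B v p) {π : B} (hπ0 : π ≠ 0)
    (KR : ∀ z : F, (∃ N : ℕ, (π : F) ^ N * z ∈ B) → (∀ i, v i z ≤ 1) → z ∈ B)
    {o m z : ι} {ν₀ : B} {e : ℕ} (D : Disc3 B v o m z π ν₀ e) {N q : ℕ} {Xo Xo' Xz Xz' : B}
    (T : XTab B v o m z π N q Xo Xo' Xz Xz') :
    ∀ P : Ideal B, P.IsMaximal → ∀ i j, i ≠ j → p i ≤ P → p j ≤ P → ∀ l, p l ≤ P :=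
  fun P hP i j hij hi hj l => inc_prime V hπ0 KR D T P hP.isPrime i j hij hi hj l

end Fermat.Agent.CAR.NS
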