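import Fermat.Agent.CAR.NS.Asm3

/-!
# CAR / NS / Adapt : [P1-ADAPT], abstract part : from the exports of the count [P1] (shape `ν * β = y₀ * π ^ N`, `y₀ ∉ P`) to the hypotheses
`PRm`, `PRoz` of `NS.pr_of_cases` and `PRm` of `NS.pr_inf_of_cases`   (= arguments `PRm`, `PRoz`, `PRmi` of `CAR.Main.top_abs`).

The hypotheses `EX` below are VERBATIM the conclusions of `P1.Dat.export_t`, `export_oo`, `export_inv` once `v o = D.vo`, `v m = D.vm`, `v z = D.vz`,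
`(π : E) = D.pi`, `v m ν₀ = D.vm D.ν₀`.
-/

set_option autoImplicit false

namespace Fermat.Agent.CAR.NS

open Fermat.Agent.GAL

variable {F Γ₀ ι : Type*} [Field F] [LinearOrderedCommGroupWithZero Γ₀] [Fintype ι]
  {B : Subring F} {v : ι → Valuation F Γ₀} {p : ι → Ideal B}

/-- `p i ≤ P` in terms of elements. -/
theorem le_iff_forall (V : Vert B v p) (i : ι) (P : Ideal B) :
    p i ≤ P ↔ ∀ x : B, v i (x : F) < 1 → x ∈ P :=
  ⟨fun h x hx => h ((V.mem_p i x).2 hx), fun h x hx => h x ((V.mem_p i x).1 hx)⟩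

/-- `¬ p i ≤ P` in terms of elements. -/
theorem not_le_iff_exists (V : Vert B v p) (i : ι) (P : Ideal B) :
    ¬ p i ≤ P ↔ ∃ x : B, v i (x : F) < 1 ∧ x ∉ P := by
  rw [le_iff_forall V]
  push Not
  rfl

/-- **(a)** `export_t` ⇒ `PRm` of `pr_of_cases`. -/
theorem prm_of_export (V : Vert B v p) {π : B} (hπ0 : π ≠ 0)
    (KR : ∀ z : F, (∃ N : ℕ, (π : F) ^ N * z ∈ B) → (∀ i, v i z ≤ 1) → z ∈ B)
    {o m z : ι} {ν₀ : B} {e : ℕ} (D : Disc3 B v o m z π ν₀ e)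
    (EX : ∀ P : Ideal B, P.IsPrime → (∀ x : B, v m (x : F) < 1 → x ∈ P) →
      (∃ x : B, v o (x : F) < 1 ∧ x ∉ P) → (∃ x : B, v z (x : F) < 1 ∧ x ∉ P) →
      ∃ ν β y₀ : B, y₀ ∉ P ∧ (ν : F) * β = y₀ * π ∧ v m (ν : F) = v m (ν₀ : F)) :
    ∀ P : Ideal B, P.IsMaximal → p m ≤ P → ¬ p o ≤ P → ¬ p z ≤ P →
      ∃ ν y : B, y ∉ P ∧ GenOn B (v m) (p m) ν y := by
  intro P hP hm ho hz
  obtain ⟨ν, β, y₀, hy₀, hmul, hν⟩ := EX P hP.isPrime ((le_iff_forall V m P).1 hm)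
    ((not_le_iff_exists V o P).1 ho) ((not_le_iff_exists V z P).1 hz)
  obtain ⟨y, hy, hg⟩ := genOn_of_dvd V hπ0 KR hP.isPrime (i := m) (ν := ν) (by rw [hν]; exact D.νm)
    (fun x hx => by rw [hν]; exact D.um x hx)
    (fun j hj hjP => by
      rcases D.h3 j with h | h | h
      · exact absurd (h ▸ hjP) ho
      · exact absurd h hj
      · exact absurd (h ▸ hjP) hz)
    (β := β) (y₀ := y₀) (N := 1) hy₀ (Subtype.ext (by rw [pow_one]; exact hmul))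
  exact ⟨ν, y, hy, hg⟩

/-- **(b)** `export_oo` ⇒ `PRoz` of `pr_of_cases`  (`INC`: two branches through `P` ⇒ all three). -/
theorem proz_of_export (V : Vert B v p) {π : B} (hπ0 : π ≠ 0)
    (KR : ∀ z : F, (∃ N : ℕ, (π : F) ^ N * z ∈ B) → (∀ i, v i z ≤ 1) → z ∈ B)
    {o m z : ι} {ν₀ : B} {e : ℕ} (D : Disc3 B v o m z π ν₀ e) (hoz : o ≠ z)
    (INC : ∀ P : Ideal B, P.IsMaximal → ∀ i j, i ≠ j → p i ≤ P → p j ≤ P → ∀ l, p l ≤ P) {N : ℕ}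
    (EX : ∀ P : Ideal B, P.IsPrime → (∀ x : B, v o (x : F) < 1 → x ∈ P) →
      (∀ x : B, v m (x : F) < 1 → x ∈ P) → (∀ x : B, v z (x : F) < 1 → x ∈ P) →
      ∃ ν β y₀ : B, y₀ ∉ P ∧ (ν : F) * β = y₀ * (π : F) ^ N ∧ v o (ν : F) = v o (π : F) ∧
        v m (ν : F) = 1 ∧ v z (ν : F) = 1) :
    ∀ P : Ideal B, P.IsMaximal → p o ≤ P → p z ≤ P → ∃ ν y : B, y ∉ P ∧ GenOn B (v o) (p o) ν y := by
  intro P hP ho hz
  have hm : p m ≤ P := INC P hP o z hoz ho hz m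
  obtain ⟨ν, β, y₀, hy₀, hmul, hνo, hνm, hνz⟩ := EX P hP.isPrime ((le_iff_forall V o P).1 ho)
    ((le_iff_forall V m P).1 hm) ((le_iff_forall V z P).1 hz)
  obtain ⟨y, hy, hg⟩ := genOn_of_dvd V hπ0 KR hP.isPrime (i := o) (ν := ν) (by rw [hνo]; exact D.πo)
    (fun x hx => by rw [hνo]; exact D.uo x hx)
    (fun j hj _ => by
      rcases D.h3 j with h | h | h
      · exact absurd h hj
      · rw [h]; exact hνm
      · rw [h]; exact hνz)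
    (β := β) (y₀ := y₀) (N := N) hy₀ (Subtype.ext hmul)
  exact ⟨ν, y, hy, hg⟩

/-- **(c)** `export_inv` ⇒ `PRm` of `pr_inf_of_cases`  (`ONE`: only one branch through `P ∋ s`). -/
theorem prmi_of_export (V : Vert B v p) {π : B} (hπ0 : π ≠ 0)
    (KR : ∀ z : F, (∃ N : ℕ, (π : F) ^ N * z ∈ B) → (∀ i, v i z ≤ 1) → z ∈ B)
    {o m z : ι} {ν₀ : B} {e : ℕ} (D : Disc3 B v o m z π ν₀ e) (hom : o ≠ m) (hzm : z ≠ m) (s : B)
    (ONE : ∀ P : Ideal B, P.IsMaximal → s ∈ P → ∀ i j, p i ≤ P → p j ≤ P → i = j)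
    (EX : ∀ P : Ideal B, P.IsPrime → (∀ x : B, v m (x : F) < 1 → x ∈ P) →
      (∃ x : B, v o (x : F) < 1 ∧ x ∉ P) → (∃ x : B, v z (x : F) < 1 ∧ x ∉ P) →
      ∃ ν β y₀ : B, y₀ ∉ P ∧ (ν : F) * β = y₀ * π ∧ v m (ν : F) = v m (ν₀ : F)) :
    ∀ P : Ideal B, P.IsMaximal → s ∈ P → p m ≤ P → ∃ ν y : B, y ∉ P ∧ GenOn B (v m) (p m) ν y :=
  fun P hP hs hm => prm_of_export V hπ0 KR D EX P hP hm (fun ho => hom (ONE P hP hs o m ho hm))
    (fun hz => hzm (ONE P hP hs z m hz hm))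

/-- **(d)** the case `e = 1` (`q = 2`), chart `t`: `π` generates `p m` at the points lying on `m` only. -/
theorem prm_of_e_one (V : Vert B v p) {π : B} (hπ0 : π ≠ 0)
    (KR : ∀ z : F, (∃ N : ℕ, (π : F) ^ N * z ∈ B) → (∀ i, v i z ≤ 1) → z ∈ B)
    {o m z : ι} {ν₀ : B} (D : Disc3 B v o m z π ν₀ 1) :
    ∀ P : Ideal B, P.IsMaximal → p m ≤ P → ¬ p o ≤ P → ¬ p z ≤ P →
      ∃ ν y : B, y ∉ P ∧ GenOn B (v m) (p m) ν y := by
  intro P hP _ ho hz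
  have hν : v m (ν₀ : F) = v m (π : F) := by
    have := D.νe
    rwa [pow_one] at this
  obtain ⟨y, hy, hg⟩ := genOn_pi V hπ0 KR hP.isPrime (i := m) (by rw [← hν]; exact D.νm)
    (fun x hx => by rw [← hν]; exact D.um x hx)
    (fun j hj hjP => by
      rcases D.h3 j with h | h | h
      · exact ho (h ▸ hjP)
      · exact hj h
      · exact hz (h ▸ hjP))
  exact ⟨π, y, hy, hg⟩

/-- **(d)** the case `e = 1` (`q = 2`), chart `1/t`. -/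
theorem prmi_of_e_one (V : Vert B v p) {π : B} (hπ0 : π ≠ 0)
    (KR : ∀ z : F, (∃ N : ℕ, (π : F) ^ N * z ∈ B) → (∀ i, v i z ≤ 1) → z ∈ B)
    {o m z : ι} {ν₀ : B} (D : Disc3 B v o m z π ν₀ 1) (hom : o ≠ m) (hzm : z ≠ m) (s : B)
    (ONE : ∀ P : Ideal B, P.IsMaximal → s ∈ P → ∀ i j, p i ≤ P → p j ≤ P → i = j) :
    ∀ P : Ideal B, P.IsMaximal → s ∈ P → p m ≤ P → ∃ ν y : B, y ∉ P ∧ GenOn B (v m) (p m) ν y :=
  fun P hP hs hm => prm_of_e_one V hπ0 KR D P hP hm (fun ho => hom (ONE P hP hs o m ho hm))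
    (fun hz => hzm (ONE P hP hs z m hz hm))

end Fermat.Agent.CAR.NS
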