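import Fermat.Agent.CAR.NS.Defs

/-!
# CAR / NS : basic lemmas on `Lam` and `Vert`  (package CAR-NS-0)
-/

set_option autoImplicit false

namespace Fermat.Agent.CAR.NS

open Fermat.Agent.GAL

variable {F Γ₀ ι : Type*} [Field F] [LinearOrderedCommGroupWithZero Γ₀]
  {B : Subring F} {v : ι → Valuation F Γ₀} {p : ι → Ideal B}

/-- `B` integrally closed: `t ^ n ∈ B ⇒ t ∈ B`. -/
theorem mem_of_pow_mem (ic : ∀ x : F, IsIntegral B x → x ∈ B) {n : ℕ} (hn : 0 < n) {t : F}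
    (h : t ^ n ∈ B) : t ∈ B := by
  refine ic t (IsIntegral.of_pow hn ?_)
  exact isIntegral_algebraMap (R := B) (A := F) (x := ⟨t ^ n, h⟩)

theorem Lam.zero_mem {n : ℕ} (hn : 0 < n) (w : F) : (0 : F) ∈ Lam B n w := by
  show (0 : F) ^ n * w ∈ B
  rw [zero_pow hn.ne', zero_mul]
  exact B.zero_mem

theorem Lam.smul_mem {n : ℕ} {w φ : F} (b : B) (hφ : φ ∈ Lam B n w) : (b : F) * φ ∈ Lam B n w := by
  show ((b : F) * φ) ^ n * w ∈ B
  rw [mul_pow, mul_assoc]
  exact B.mul_mem (B.pow_mem b.2 n) hφ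

/-- each cross term `t = φ^k ψ^(n-k) w` satisfies `t^n = (φ^n w)^k (ψ^n w)^(n-k) ∈ B`, so `t ∈ B` by `ic`;
then expand `(φ+ψ)^n` by `add_pow`. -/
theorem Lam.add_mem (ic : ∀ x : F, IsIntegral B x → x ∈ B) {n : ℕ} (hn : 0 < n) {w φ ψ : F}
    (hφ : φ ∈ Lam B n w) (hψ : ψ ∈ Lam B n w) : φ + ψ ∈ Lam B n w := by
  have hφ' : φ ^ n * w ∈ B := hφ
  have hψ' : ψ ^ n * w ∈ B := hψ
  have cross : ∀ k ≤ n, φ ^ k * ψ ^ (n - k) * w ∈ B := by
    intro k hk
    refine mem_of_pow_mem ic hn ?_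
    have h1 : (φ ^ k * ψ ^ (n - k) * w) ^ n = (φ ^ n * w) ^ k * (ψ ^ n * w) ^ (n - k) := by
      have h2 : w ^ n = w ^ k * w ^ (n - k) := by rw [← pow_add, Nat.add_sub_cancel' hk]
      rw [mul_pow, mul_pow, mul_pow, mul_pow, h2, ← pow_mul, ← pow_mul, ← pow_mul, ← pow_mul,
        mul_comm k n, mul_comm (n - k) n]
      ring
    rw [h1]
    exact B.mul_mem (B.pow_mem hφ' _) (B.pow_mem hψ' _)
  show (φ + ψ) ^ n * w ∈ B
  rw [add_pow, Finset.sum_mul]
  refine B.sum_mem fun m hm => ?_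
  have hm' : m ≤ n := Nat.lt_succ_iff.1 (Finset.mem_range.1 hm)
  have h3 : φ ^ m * ψ ^ (n - m) * (n.choose m : F) * w
      = (φ ^ m * ψ ^ (n - m) * w) * (n.choose m : F) := by ring
  rw [h3]
  exact B.mul_mem (cross m hm') (natCast_mem B _)

theorem Lam.neg_mem {n : ℕ} {w φ : F} (hφ : φ ∈ Lam B n w) : -φ ∈ Lam B n w := by
  have := Lam.smul_mem (-1 : B) hφ
  simpa using this

theorem Lam.sub_mem (ic : ∀ x : F, IsIntegral B x → x ∈ B) {n : ℕ} (hn : 0 < n) {w φ ψ : F}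
    (hφ : φ ∈ Lam B n w) (hψ : ψ ∈ Lam B n w) : φ - ψ ∈ Lam B n w := by
  rw [sub_eq_add_neg]
  exact Lam.add_mem ic hn hφ (Lam.neg_mem hψ)

theorem Lam.sum_mem (ic : ∀ x : F, IsIntegral B x → x ∈ B) {n : ℕ} (hn : 0 < n) {w : F}
    {κ : Type*} (s : Finset κ) (b : κ → B) (g : κ → F) (hg : ∀ k ∈ s, g k ∈ Lam B n w) :
    ∑ k ∈ s, (b k : F) * g k ∈ Lam B n w := by
  classical
  induction s using Finset.induction_on with
  | empty => rw [Finset.sum_empty]; exact Lam.zero_mem hn w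
  | insert a s ha ih =>
    rw [Finset.sum_insert ha]
    exact Lam.add_mem ic hn (Lam.smul_mem _ (hg a (Finset.mem_insert_self a s)))
      (ih fun k hk => hg k (Finset.mem_insert_of_mem hk))

/-- a product of `n` elements of `Lam`, times `w`, lies in `B` (its `n`-th power is `∏ (φ_j^n w) ∈ B`). -/
theorem Lam.prod_mul_mem (ic : ∀ x : F, IsIntegral B x → x ∈ B) {n : ℕ} (hn : 0 < n) {w : F}
    (φ : Fin n → F) (hφ : ∀ j, φ j ∈ Lam B n w) : (∏ j, φ j) * w ∈ B := by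
  refine mem_of_pow_mem ic hn ?_
  have h1 : ((∏ j, φ j) * w) ^ n = ∏ j, (φ j ^ n * w) := by
    rw [Finset.prod_mul_distrib, Finset.prod_const, Finset.card_univ, Fintype.card_fin, mul_pow,
      Finset.prod_pow]
  rw [h1]
  exact B.prod_mem fun j _ => hφ j

theorem Lam.val_le_one (V : Vert B v p) {n : ℕ} (hn : 0 < n) {w : F} {i : ι} (hw : v i w = 1) {φ : F}
    (hφ : φ ∈ Lam B n w) : v i φ ≤ 1 := by
  have h1 := V.le_one i ⟨_, hφ⟩
  simp only [map_mul, map_pow, hw, mul_one] at h1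
  exact (pow_le_one_iff hn.ne').1 h1

theorem Vert.isPrime (V : Vert B v p) (i : ι) : (p i).IsPrime :=
  (Ideal.Quotient.isDomain_iff_prime (p i)).1 (V.ded i).toIsDomain

theorem Vert.notMem_iff (V : Vert B v p) (i : ι) (z : B) : z ∉ p i ↔ v i (z : F) = 1 := by
  rw [V.mem_p, not_lt]
  exact ⟨fun h => le_antisymm (V.le_one i z) h, fun h => h.ge⟩

theorem val_one_of_sub (u : Valuation F Γ₀) {w : F} (hw : u (w - 1) < 1) : u w = 1 := by
  have := u.map_one_add_of_lt hw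
  rwa [add_sub_cancel] at this

/-- `u (x - y) < 1` is a congruence: helper lemmas for computing modulo the maximal ideal of `u`. -/
theorem cong_trans (u : Valuation F Γ₀) {x y z : F} (h1 : u (x - y) < 1) (h2 : u (y - z) < 1) :
    u (x - z) < 1 := by
  have := u.map_add_lt h1 h2
  rwa [sub_add_sub_cancel] at this

theorem cong_add (u : Valuation F Γ₀) {x y x' y' : F} (h1 : u (x - y) < 1) (h2 : u (x' - y') < 1) :
    u ((x + x') - (y + y')) < 1 := by
  have := u.map_add_lt h1 h2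
  rwa [← add_sub_add_comm] at this

theorem cong_mul_left (u : Valuation F Γ₀) {a x y : F} (ha : u a ≤ 1) (h1 : u (x - y) < 1) :
    u (a * x - a * y) < 1 := by
  rw [← mul_sub, map_mul]
  exact (mul_le_of_le_one_left' ha).trans_lt h1

theorem cong_mul (u : Valuation F Γ₀) {x y x' y' : F} (hx : u x ≤ 1) (hy' : u y' ≤ 1)
    (h1 : u (x - y) < 1) (h2 : u (x' - y') < 1) : u (x * x' - y * y') < 1 := by
  have e1 : u (x * x' - x * y') < 1 := cong_mul_left u hx h2
  have e2 : u (x * y' - y * y') < 1 := by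
    rw [mul_comm x y', mul_comm y y']
    exact cong_mul_left u hy' h1
  exact cong_trans u e1 e2

theorem cong_pow (u : Valuation F Γ₀) {x y : F} (hx : u x ≤ 1) (h1 : u (x - y) < 1) (N : ℕ) :
    u (x ^ N - y ^ N) < 1 := by
  have hy : u y ≤ 1 := by
    have h2 : y = x - (x - y) := by ring
    rw [h2]
    exact (u.map_sub _ _).trans (max_le hx h1.le)
  induction N with
  | zero => simp
  | succ N ih =>
    rw [pow_succ, pow_succ]
    refine cong_mul u ?_ hy ih h1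
    rw [map_pow]
    exact pow_le_one' hx N

theorem cong_sum (u : Valuation F Γ₀) {κ : Type*} (s : Finset κ) (x y : κ → F)
    (h : ∀ k ∈ s, u (x k - y k) < 1) : u (∑ k ∈ s, x k - ∑ k ∈ s, y k) < 1 := by
  rw [← Finset.sum_sub_distrib]
  exact u.map_sum_lt one_ne_zero h

/-- prime avoidance, trivial form: for `P` prime and finitely many `j` with `¬ p j ≤ P` there is `δ ∉ P` lying in
all these `p j` (product of one element for each `j`). -/
theorem exists_notMem_mem (p : ι → Ideal B) {P : Ideal B} (hP : P.IsPrime) (S : Finset ι)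
    (hS : ∀ j ∈ S, ¬ p j ≤ P) : ∃ δ : B, δ ∉ P ∧ ∀ j ∈ S, δ ∈ p j := by
  classical
  induction S using Finset.induction_on with
  | empty => exact ⟨1, (Ideal.ne_top_iff_one P).1 hP.ne_top, fun j hj => absurd hj (by simp)⟩
  | insert a S ha ih =>
    obtain ⟨δ, hδ, hδS⟩ := ih fun j hj => hS j (Finset.mem_insert_of_mem hj)
    obtain ⟨d, hd, hdP⟩ := SetLike.not_le_iff_exists.1 (hS a (Finset.mem_insert_self a S))
    refine ⟨d * δ, fun h => ?_, fun j hj => ?_⟩
    · exact (hP.mem_or_mem h).elim hdP hδ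
    · rcases Finset.mem_insert.1 hj with rfl | hj
      · exact (p j).mul_mem_right _ hd
      · exact (p j).mul_mem_left _ (hδS j hj)

/-- the same with a prescribed depth (use `Arch` and a power of the previous `δ`). -/
theorem exists_notMem_val_le (V : Vert B v p) {P : Ideal B} (hP : P.IsPrime) (S : Finset ι)
    (hS : ∀ j ∈ S, ¬ p j ≤ P) (γ : ι → Γ₀) (hγ : ∀ j ∈ S, γ j ≠ 0) :
    ∃ δ : B, δ ∉ P ∧ ∀ j ∈ S, v j (δ : F) ≤ γ j := by
  obtain ⟨δ, hδ, hδS⟩ := exists_notMem_mem p hP S hS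
  have h1 : ∀ j, ∃ m : ℕ, j ∈ S → v j (δ : F) ^ m < γ j := by
    intro j
    by_cases hj : j ∈ S
    · obtain ⟨m, hm⟩ := V.arch j (δ : F) ((V.mem_p j δ).1 (hδS j hj)) (γ j) (hγ j hj)
      exact ⟨m, fun _ => hm⟩
    · exact ⟨0, fun h => absurd h hj⟩
  choose m hm using h1
  refine ⟨δ ^ S.sup m, fun h => hδ (hP.mem_of_pow_mem _ h), fun j hj => ?_⟩
  rw [Subring.coe_pow, map_pow]
  exact (pow_le_pow_right_of_le_one' (V.le_one j δ) (Finset.le_sup hj)).trans (hm j hj).le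

end Fermat.Agent.CAR.NS
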