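import Fermat.Agent.CAR.NS.CondL

/-!
# CAR / COND : the main theorem `cond_main`  (package CAR-COND-6)

"If near every closed point `P` of the special fibre `Lam` contains a section which does not vanish at `P` and
takes the SAME value at `P` on all branches through `P`, then `Lam` contains a section `G ≡ 1` on the whole
special fibre."   No conductor, no `δ`-invariant, no completion: Frobenius kills the unipotent part.
-/

set_option autoImplicit false

namespace Fermat.Agent.CAR.NS

open Fermat.Agent.GAL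

variable {F Γ₀ ι : Type*} [Field F] [LinearOrderedCommGroupWithZero Γ₀] [Fintype ι]
  {B : Subring F} {v : ι → Valuation F Γ₀} {p : ι → Ideal B}

/-- **Theorem COND.**
PROOF. `J := {β : B | ∃ G ∈ Lam B n w, ∀ i, v i (G - β) < 1}` is an ideal of `B` (`Lam.add_mem`, `Lam.smul_mem`,
`Lam.zero_mem`; `n > 0` because `q` is prime and `n.Coprime q`).  If `J ≠ ⊤` take a maximal `P ⊇ J`
(`Ideal.exists_le_maximal`).  If some `p i ≤ P`: `hGL` + `cond_local` give `β ∈ J \ P`.  If not: `exists_notMem_mem`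
with `S = univ` gives `δ ∉ P` in all `p i`, and `δ ∈ J` with `G = 0`.  Contradiction; so `1 ∈ J`. -/
theorem cond_main (V : Vert B v p) {q n : ℕ} (hq : q.Prime) (hqv : ∀ i, v i (q : F) < 1)
    (hn : Nat.Coprime n q) {w : F} (hw : ∀ i, v i (w - 1) < 1)
    (hGL : ∀ P : Ideal B, P.IsMaximal → (∃ i, p i ≤ P) →
      ∃ φ ∈ Lam B n w, ∃ c : B, c ∉ P ∧ ∀ i, p i ≤ P → Val B (v i) P φ c) :
    ∃ G ∈ Lam B n w, ∀ i, v i (G - 1) < 1 := by
  have hn0 : 0 < n := by
    rcases Nat.eq_zero_or_pos n with rfl | h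
    · rw [Nat.coprime_zero_left] at hn
      exact absurd hn hq.one_lt.ne'
    · exact h
  let J : Ideal B :=
    { carrier := {β : B | ∃ G ∈ Lam B n w, ∀ i, v i (G - (β : F)) < 1}
      add_mem' := by
        rintro β β' ⟨G, hG, h⟩ ⟨G', hG', h'⟩
        refine ⟨G + G', Lam.add_mem V.ic hn0 hG hG', fun i => ?_⟩
        rw [Subring.coe_add]
        exact cong_add (v i) (h i) (h' i)
      zero_mem' := ⟨0, Lam.zero_mem hn0 w, fun i => by simp⟩
      smul_mem' := by
        rintro b β ⟨G, hG, h⟩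
        refine ⟨(b : F) * G, Lam.smul_mem b hG, fun i => ?_⟩
        rw [smul_eq_mul, Subring.coe_mul]
        exact cong_mul_left (v i) (V.le_one i b) (h i) }
  have hJ : J = ⊤ := by
    by_contra hne
    obtain ⟨P, hP, hJP⟩ := Ideal.exists_le_maximal J hne
    by_cases hex : ∃ i, p i ≤ P
    · obtain ⟨φ, hφ, c, hc, hval⟩ := hGL P hP hex
      obtain ⟨β, hβ, G, hG, hGβ⟩ := cond_local V hq hqv hn hw hP hφ hc hval
      exact hβ (hJP ⟨G, hG, hGβ⟩)
    · push Not at hex
      obtain ⟨δ, hδ, hδp⟩ := exists_notMem_mem p hP.isPrime Finset.univ fun j _ => hex j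
      refine hδ (hJP ⟨0, Lam.zero_mem hn0 w, fun i => ?_⟩)
      rw [zero_sub, Valuation.map_neg]
      exact (V.mem_p i δ).1 (hδp i (Finset.mem_univ i))
  have h1 : (1 : B) ∈ J := by rw [hJ]; trivial
  obtain ⟨G, hG, h⟩ := h1
  exact ⟨G, hG, fun i => by simpa using h i⟩

end Fermat.Agent.CAR.NS
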