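import Fermat.Agent.CAR.NS.Main
import Fermat.Agent.CAR.NS.Cond

/-!
# CAR / NS : the chart theorem `chart_main` = NS + COND in one statement  (package CAR-NS-9)
-/

set_option autoImplicit false

namespace Fermat.Agent.CAR.NS

open Fermat.Agent.GAL

variable {F Γ₀ ι : Type*} [Field F] [LinearOrderedCommGroupWithZero Γ₀] [Fintype ι]
  {B : Subring F} {v : ι → Valuation F Γ₀} {p : ι → Ideal B}

/-- **generic principality** (hypothesis `hpr` of `ns_main`): a uniformiser `ν ∈ B` of `v j` with `v j ν ^ e = v j π`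
generates `p j` at the generic point of the component.
PROOF. `genOn_of_dvd` with `P := p j` (prime by `V.isPrime`), `i := j`; `hoth` is vacuous by `V.ne`.
`exists_notMem_val_le` (`P := p j`, `S := univ.erase j`, `γ j' := v j' π`) gives `δ ∉ p j` with `v j' δ ≤ v j' π` for `j' ≠ j`.
`y₀ := δ ν^e / π ∈ B` by `KR` (`π y₀ = δ ν^e`; `v j y₀ = v j δ = 1`; `v j' y₀ ≤ 1`), `y₀ ∉ p j`;
`β := δ ν^(e-1)`, `N := 1`: `ν β = y₀ π`. -/
theorem genOn_generic (V : Vert B v p) {π : B} (hπ0 : π ≠ 0)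
    (KR : ∀ z : F, (∃ N : ℕ, (π : F) ^ N * z ∈ B) → (∀ i, v i z ≤ 1) → z ∈ B)
    {j : ι} {ν : B} {e : ℕ} (he : 0 < e) (hν1 : v j (ν : F) < 1)
    (hν : ∀ x : F, v j x < 1 → v j x ≤ v j (ν : F)) (hνe : v j (ν : F) ^ e = v j (π : F)) :
    ∃ y : B, y ∉ p j ∧ GenOn B (v j) (p j) ν y := by
  classical
  have hπF : (π : F) ≠ 0 := fun h => hπ0 (Subtype.ext h)
  obtain ⟨δ, hδ, hδS⟩ := exists_notMem_val_le V (V.isPrime j) (Finset.univ.erase j)
    (fun j' hj' => V.ne j j' (Finset.ne_of_mem_erase hj').symm) (fun j' => v j' (π : F))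
    (fun j' _ => (Valuation.ne_zero_iff _).2 hπF)
  have hδj : v j (δ : F) = 1 := (V.notMem_iff j δ).1 hδ
  have hvπ : ∀ i, v i (π : F) ≠ 0 := fun i => (Valuation.ne_zero_iff _).2 hπF
  have hvj : v j ((δ : F) * (ν : F) ^ e / (π : F)) = 1 := by
    rw [map_div₀, map_mul, map_pow, hδj, one_mul, hνe, div_self (hvπ j)]
  have hy₀ : (δ : F) * (ν : F) ^ e / (π : F) ∈ B := by
    refine KR _ ⟨1, ?_⟩ fun i => ?_
    · rw [pow_one, mul_div_cancel₀ _ hπF]
      exact (δ * ν ^ e).2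
    · by_cases hij : i = j
      · subst hij
        exact hvj.le
      · rw [map_div₀, map_mul, map_pow,
          div_le_one₀ (zero_lt_iff.2 (hvπ i))]
        exact (mul_le_of_le_one_right' (pow_le_one' (V.le_one i ν) e)).trans
          (hδS i (Finset.mem_erase.2 ⟨hij, Finset.mem_univ i⟩))
  refine genOn_of_dvd V hπ0 KR (V.isPrime j) hν1 hν
    (fun j' h hle => absurd hle (V.ne j j' h.symm)) (β := δ * ν ^ (e - 1))
    (y₀ := ⟨_, hy₀⟩) (N := 1) ((V.notMem_iff j _).2 hvj) ?_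
  apply Subtype.ext
  show (ν : F) * ((δ : F) * (ν : F) ^ (e - 1)) = (δ : F) * (ν : F) ^ e / (π : F) * (π : F) ^ 1
  rw [pow_one, div_mul_cancel₀ _ hπF]
  obtain ⟨e', rfl⟩ : ∃ e', e = e' + 1 := ⟨e - 1, by omega⟩
  rw [Nat.add_sub_cancel, pow_succ]
  ring

/-- **THE CHART THEOREM.**  `w ≡ 1` on the special fibre, `n ∣ div w` on the generic fibre (`HG`), `Lam B n w` finitely
generated (`FG`), through every closed point `P` of the special fibre at least one vertical prime is principal (`PR`), and the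
values of the sections of `Lam B n w` on the branches through `P` agree, after raising to the power `c`, up to GLOBAL
unit constants `e i` (`GLUE`); `ψ ≡ e i` along `v i`.   Then `w' := w^c ψ^n ≡ 1` and `Lam B n w'` contains a section `G ≡ 1`.
PROOF. `n > 0` (`q` prime, coprime).  `v i w = 1` (`val_one_of_sub`).  `w' ≡ 1`: `cong_pow`, `cong_mul`, `hψ`, `hen`.
Apply `cond_main` to `w'`.  (GL) at `P`: `PR` gives `i₀ ν y`; `ns_main` gives `φ ∈ Lam B n w`, `u = φ^n w ∉ P`.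
`ψ ≠ 0` (`v i₀ ψ = 1` because `v i₀ (e i₀) = 1`: `e i₀` is a unit of `B`).  `φ' := φ^c / ψ`: `φ'^n w' = u^c ∈ B`.
For each `i` through `P`, `exists_val` gives `b i ∉ P` with `v i (φ - b i) < 1`; then `v i (φ' - b i ^ c * e' i) < 1`
(`1/ψ ≡ e' i` since `1/ψ - e' i = e' i (e i - ψ)/ψ`), i.e. `Val B (v i) P φ' (b i ^ c * e' i)` with `s = 1`, `z = 0`.
Take `c₀ := b i₀ ^ c * e' i₀ ∉ P` (`e' i₀` is a unit, `P` prime).  `GLUE P φ i i₀ (b i) (b i₀)` gives
`e i₀ * b i ^ c - e i * b i₀ ^ c ∈ P`; multiply by `e' i * e' i₀`: `b i ^ c * e' i - c₀ ∈ P`; `Val.congr`. -/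
theorem chart_main (V : Vert B v p) {π : B} (hπ0 : π ≠ 0)
    (KR : ∀ z : F, (∃ N : ℕ, (π : F) ^ N * z ∈ B) → (∀ i, v i z ≤ 1) → z ∈ B)
    {q n : ℕ} (hq : q.Prime) (hqv : ∀ i, v i (q : F) < 1) (hn : Nat.Coprime n q)
    {w : F} (hw : ∀ i, v i (w - 1) < 1)
    (HG : ∃ (N m : ℕ) (φ : Fin m → Fin n → F), (∀ k j, φ k j ∈ Lam B n w) ∧
      (∑ k, ∏ j, φ k j) * w = (π : F) ^ N)
    (FG : ∃ (r : ℕ) (g : Fin r → F), (∀ k, g k ∈ Lam B n w) ∧
      ∀ φ ∈ Lam B n w, ∃ b : Fin r → B, φ = ∑ k, (b k : F) * g k)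
    (hpr : ∀ j, ∃ ν y : B, y ∉ p j ∧ GenOn B (v j) (p j) ν y)
    (PR : ∀ P : Ideal B, P.IsMaximal → (∃ i, p i ≤ P) →
      ∃ (i : ι) (ν y : B), p i ≤ P ∧ y ∉ P ∧ GenOn B (v i) (p i) ν y)
    (c : ℕ) (ψ : F) (e e' : ι → B) (hee' : ∀ i, e i * e' i = 1) (hψ : ∀ i, v i (ψ - e i) < 1)
    (hen : ∀ i, v i ((e i : F) ^ n - 1) < 1)
    (GLUE : ∀ P : Ideal B, P.IsMaximal → ∀ φ ∈ Lam B n w, ∀ i j, p i ≤ P → p j ≤ P → ∀ b b' : B, b ∉ P →
      v i (φ - b) < 1 → v j (φ - b') < 1 → e j * b ^ c - e i * b' ^ c ∈ P) :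
    (∀ i, v i (w ^ c * ψ ^ n - 1) < 1) ∧ ∃ G ∈ Lam B n (w ^ c * ψ ^ n), ∀ i, v i (G - 1) < 1 := by
  classical
  have hn0 : 0 < n := by
    rcases Nat.eq_zero_or_pos n with h | h
    · subst h
      rw [Nat.coprime_zero_left] at hn
      exact absurd hn hq.one_lt.ne'
    · exact h
  have hw1 : ∀ i, v i w = 1 := fun i => val_one_of_sub (v i) (hw i)
  have hee'F : ∀ i, (e i : F) * (e' i : F) = 1 := fun i => by
    have := congrArg (Subtype.val) (hee' i)
    simpa using this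
  have hve : ∀ i j, v j (e i : F) = 1 := by
    intro i j
    have h1 : v j (e i : F) * v j (e' i : F) = 1 := by rw [← map_mul, hee'F, map_one]
    refine le_antisymm (V.le_one j _) ?_
    rw [← h1]
    exact mul_le_of_le_one_right' (V.le_one j _)
  have hve' : ∀ i j, v j (e' i : F) = 1 := by
    intro i j
    have h1 : v j (e i : F) * v j (e' i : F) = 1 := by rw [← map_mul, hee'F, map_one]
    rwa [hve, one_mul] at h1
  have hvψ : ∀ i, v i ψ = 1 := by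
    intro i
    have h1 : v i (ψ - e i) < v i (e i : F) := by rw [hve]; exact hψ i
    have h2 := Valuation.map_add_eq_of_lt_left (v i) h1
    rw [add_comm, sub_add_cancel] at h2
    rw [h2, hve]
  have hw' : ∀ i, v i (w ^ c * ψ ^ n - 1) < 1 := by
    intro i
    have h1 : v i (w ^ c - 1 ^ c) < 1 := cong_pow (v i) (hw1 i).le (hw i) c
    have h2 : v i (ψ ^ n - (e i : F) ^ n) < 1 := cong_pow (v i) (hvψ i).le (hψ i) n
    have h3 : v i (ψ ^ n - 1) < 1 := cong_trans (v i) h2 (hen i)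
    have h4 := cong_mul (v i) (x := w ^ c) (y := 1 ^ c) (x' := ψ ^ n) (y' := 1)
      (by rw [map_pow, hw1, one_pow]) (by rw [map_one]) h1 h3
    simpa using h4
  refine ⟨hw', cond_main V hq hqv hn hw' ?_⟩
  intro P hP hex
  obtain ⟨i₀, ν, y, hi₀, hy, hg⟩ := PR P hP hex
  have hψ0 : ψ ≠ 0 := fun h => by
    have := hvψ i₀
    rw [h, map_zero] at this
    exact zero_ne_one this
  obtain ⟨φ, hφ, u, hu, huP⟩ := ns_main V hπ0 KR hn0 hw1 HG FG hpr hP hi₀ hy hg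
  have hb : ∀ i, p i ≤ P → ∃ b : B, b ∉ P ∧ v i (φ - b) < 1 := by
    intro i hi
    obtain ⟨b, hb1, -, hb2, -⟩ := exists_val V hP.isPrime hi hn0 (hw i) hu huP
    exact ⟨b, hb1, hb2⟩
  choose b hbP hbv using hb
  have he'P : ∀ i, e' i ∉ P := by
    intro i h
    apply hP.ne_top
    rw [Ideal.eq_top_iff_one, ← hee' i]
    exact P.mul_mem_left _ h
  refine ⟨φ ^ c / ψ, ?_, b i₀ hi₀ ^ c * e' i₀, ?_, ?_⟩
  · show (φ ^ c / ψ) ^ n * (w ^ c * ψ ^ n) ∈ B
    have h1 : (φ ^ c / ψ) ^ n * (w ^ c * ψ ^ n) = ((u ^ c : B) : F) := by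
      rw [Subring.coe_pow, hu, div_pow, mul_pow, ← pow_mul, ← pow_mul, mul_comm c n]
      field_simp
    rw [h1]
    exact (u ^ c).2
  · intro h
    rcases hP.isPrime.mem_or_mem h with h | h
    · exact hbP i₀ hi₀ (hP.isPrime.mem_of_pow_mem _ h)
    · exact he'P i₀ h
  · intro i hi
    have hvφ : v i φ ≤ 1 := Lam.val_le_one V hn0 (hw1 i) hφ
    have h1 : v i (φ ^ c - (b i hi : F) ^ c) < 1 := cong_pow (v i) hvφ (hbv i hi) c
    have h2 : v i (ψ⁻¹ - (e' i : F)) < 1 := by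
      have h3 : ψ⁻¹ - (e' i : F) = (e' i : F) * ((e i : F) - ψ) * ψ⁻¹ := by
        have := hee'F i
        field_simp
        linear_combination (-1 : F) * this
      rw [h3, map_mul, map_mul, hve', one_mul, map_inv₀, hvψ, inv_one, mul_one,
        Valuation.map_sub_swap]
      exact hψ i
    have h4 : v i (φ ^ c * ψ⁻¹ - (b i hi : F) ^ c * (e' i : F)) < 1 :=
      cong_mul (v i) (by rw [map_pow]; exact pow_le_one' hvφ c) (hve' i i).le h1 h2
    have hval : Val B (v i) P (φ ^ c / ψ) (b i hi ^ c * e' i) := by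
      refine ⟨1, (Ideal.ne_top_iff_one P).1 hP.ne_top, 0, P.zero_mem, ?_⟩
      have h5 : ((1 : B) : F) * (φ ^ c / ψ - ((b i hi ^ c * e' i : B) : F)) - ((0 : B) : F)
          = φ ^ c * ψ⁻¹ - (b i hi : F) ^ c * (e' i : F) := by
        rw [div_eq_mul_inv]
        push_cast
        ring
      rw [h5]
      exact h4
    refine Val.congr V hval ?_
    have h6 := GLUE P hP φ hφ i i₀ hi hi₀ (b i hi) (b i₀ hi₀) (hbP i hi) (hbv i hi) (hbv i₀ hi₀)
    have h7 : b i hi ^ c * e' i - b i₀ hi₀ ^ c * e' i₀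
        = e' i * e' i₀ * (e i₀ * b i hi ^ c - e i * b i₀ hi₀ ^ c) := by
      linear_combination (- (e' i * b i hi ^ c)) * hee' i₀ + (e' i₀ * b i₀ hi₀ ^ c) * hee' i
    rw [h7]
    exact P.mul_mem_left _ h6

end Fermat.Agent.CAR.NS
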