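import Fermat.Agent.CAR.NS.Basic

/-!
# CAR / COND : a power of `P` lies in `𝔞 + 𝔭` near `P`  (package CAR-COND-1)
-/

set_option autoImplicit false

namespace Fermat.Agent.CAR.NS

open Fermat.Agent.GAL

variable {F Γ₀ ι : Type*} [Field F] [LinearOrderedCommGroupWithZero Γ₀]

/-- (N5) `A ⧸ 𝔭` Dedekind, `P ⊇ 𝔭` maximal, `𝔞 ⊄ 𝔭`.  Then near `P` a power of `P` lies in `𝔞 + 𝔭`.
PROOF. In `R = A ⧸ 𝔭` let `𝔞' = map 𝔞 ≠ ⊥`, `𝔪 = map P` (maximal).  If `𝔪 = ⊥` then `R` is a field, `𝔞' = ⊤`: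
take `N₀ = 0`, `δ = 1`.  Otherwise `𝔞' = 𝔪 ^ k * 𝔟` with `¬ 𝔪 ∣ 𝔟`
(`FiniteMultiplicity.exists_eq_pow_mul_and_not_dvd`), i.e. `¬ 𝔟 ≤ 𝔪` (`Ideal.dvd_iff_le`); pick `δ' ∈ 𝔟 \ 𝔪`, lift it
to `δ`; `N₀ = k`: `mk (δ z^N) ∈ 𝔟 * 𝔪^N ≤ 𝔟 * 𝔪^k = 𝔞'`, so `δ z^N ∈ 𝔞 ⊔ 𝔭` (`Ideal.mem_map_iff_of_surjective`,
`Ideal.Quotient.eq`). -/
theorem ded_pow_mem {A : Type*} [CommRing A] (𝔭 𝔞 P : Ideal A) (hd : IsDedekindDomain (A ⧸ 𝔭))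
    (hP : P.IsMaximal) (h𝔭 : 𝔭 ≤ P) (h𝔞 : ¬ 𝔞 ≤ 𝔭) :
    ∃ (N₀ : ℕ) (δ : A), δ ∉ P ∧ ∀ z ∈ P, ∀ N, N₀ ≤ N → δ * z ^ N ∈ 𝔞 ⊔ 𝔭 := by
  have hdom : IsDomain (A ⧸ 𝔭) := hd.toIsDomain
  have hsurj : Function.Surjective (Ideal.Quotient.mk 𝔭) := Ideal.Quotient.mk_surjective
  set 𝔞' : Ideal (A ⧸ 𝔭) := 𝔞.map (Ideal.Quotient.mk 𝔭) with h𝔞'
  set 𝔪 : Ideal (A ⧸ 𝔭) := P.map (Ideal.Quotient.mk 𝔭) with h𝔪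
  have ha0 : 𝔞' ≠ 0 := by
    intro h0
    apply h𝔞
    have h1 : 𝔞' = ⊥ := h0
    rw [h𝔞', Ideal.map_eq_bot_iff_le_ker, Ideal.mk_ker] at h1
    exact h1
  have hcomap : 𝔪.comap (Ideal.Quotient.mk 𝔭) = P := Ideal.comap_map_mk h𝔭
  have hmtop : 𝔪 ≠ ⊤ := by
    intro h
    rw [h, Ideal.comap_top] at hcomap
    exact hP.ne_top hcomap.symm
  have hunit : ¬ IsUnit 𝔪 := by rwa [Ideal.isUnit_iff]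
  obtain ⟨𝔟, hb, hnd⟩ :=
    (FiniteMultiplicity.of_not_isUnit hunit ha0).exists_eq_pow_mul_and_not_dvd
  rw [Ideal.dvd_iff_le] at hnd
  obtain ⟨δ', hδb, hδm⟩ := SetLike.not_le_iff_exists.1 hnd
  obtain ⟨δ, rfl⟩ := hsurj δ'
  refine ⟨multiplicity 𝔪 𝔞', δ, fun hδ => hδm (Ideal.mem_map_of_mem _ hδ), fun z hz N hN => ?_⟩
  have h1 : Ideal.Quotient.mk 𝔭 (δ * z ^ N) ∈ 𝔞' := by
    rw [hb, map_mul, map_pow, mul_comm (Ideal.Quotient.mk 𝔭 δ)]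
    exact Ideal.mul_mem_mul
      (Ideal.pow_le_pow_right hN (Ideal.pow_mem_pow (Ideal.mem_map_of_mem _ hz) N)) hδb
  obtain ⟨a, ha, hae⟩ := (Ideal.mem_map_iff_of_surjective _ hsurj).1 h1
  have h2 : δ * z ^ N - a ∈ 𝔭 := (Ideal.Quotient.eq).1 hae.symm
  have h3 : δ * z ^ N = a + (δ * z ^ N - a) := by ring
  rw [h3]
  exact Ideal.add_mem _ (Ideal.mem_sup_left ha) (Ideal.mem_sup_right h2)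

end Fermat.Agent.CAR.NS
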