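import Fermat.Agent.CAR.NS.CondB1

/-!
# CAR / COND : the approximation lemma  (package CAR-COND-4)
-/

set_option autoImplicit false

namespace Fermat.Agent.CAR.NS

open Fermat.Agent.GAL

variable {F Γ₀ ι : Type*} [Field F] [LinearOrderedCommGroupWithZero Γ₀] [Fintype ι]
  {B : Subring F} {v : ι → Valuation F Γ₀} {p : ι → Ideal B}

/-- (C4a) `x ∈ F` integral for all `v i`, vanishing at `P` along every branch through `P`.  Then for all large `N`
the function `x ^ N`, multiplied by some `δ ∉ P`, is congruent modulo ALL `v i` to ONE element `β₁ ∈ P` of `B`.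
PROOF. `ιP := {i | p i ≤ P}`.  For `i ∈ ιP` choose `s i ∉ P`, `z i ∈ P` (hyp. `h`), and `N₀ i`, `δ₁ i` by
`approx_branch`; `N₀ := sup`.  For `i ∉ ιP` choose `d i ∈ p i \ P`.  Given `N ≥ N₀` let `ε i` be as in
`approx_branch` for `z i`, `f i := s i ^ N * δ₁ i` for `i ∈ ιP`, `f i := d i` otherwise, `δ := ∏ i, f i ∉ P`,
`κ i := ∏ j ∈ univ.erase i, f j`, `β₁ := ∑ i ∈ ιP, κ i * ε i ∈ P`.
* `i ∈ ιP`: `δ x^N = κ i * δ₁ i * (s i x)^N ≡ κ i * δ₁ i * (z i)^N ≡ κ i * ε i ≡ β₁` (the other summands lie in `p i`);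
* `i ∉ ιP`: `v i δ < 1` and all summands of `β₁` lie in `p i`. -/
theorem approx_pow (V : Vert B v p) {P : Ideal B} (hP : P.IsMaximal) {x : F} (hx : ∀ i, v i x ≤ 1)
    (h : ∀ i, p i ≤ P → ∃ s : B, s ∉ P ∧ ∃ z ∈ P, v i ((s : F) * x - z) < 1) :
    ∃ N₀ : ℕ, ∀ N, N₀ ≤ N → ∃ δ : B, δ ∉ P ∧ ∃ β₁ ∈ P, ∀ i, v i ((δ : F) * x ^ N - β₁) < 1 := by
  classical
  have hA : ∀ i, ∃ (s z δ₁ d : B) (N₀ : ℕ),
      (p i ≤ P → s ∉ P ∧ z ∈ P ∧ v i ((s : F) * x - z) < 1 ∧ δ₁ ∉ P ∧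
        ∀ N, N₀ ≤ N → ∃ ε ∈ P, v i ((δ₁ : F) * (z : F) ^ N - ε) < 1 ∧ ∀ j, j ≠ i → ε ∈ p j) ∧
      (¬ p i ≤ P → d ∈ p i ∧ d ∉ P) := by
    intro i
    by_cases hi : p i ≤ P
    · obtain ⟨s, hs, z, hz, hsz⟩ := h i hi
      obtain ⟨N₀, δ₁, hδ₁, hb⟩ := approx_branch V hP hi
      exact ⟨s, z, δ₁, 0, N₀, fun _ => ⟨hs, hz, hsz, hδ₁, fun N hN => hb z hz N hN⟩,
        fun h' => absurd hi h'⟩
    · obtain ⟨d, hd, hd'⟩ := SetLike.not_le_iff_exists.mp hi
      exact ⟨0, 0, 0, d, 0, fun h' => absurd h' hi, fun _ => ⟨hd, hd'⟩⟩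
  choose s z δ₁ d N₀ hin hout using hA
  refine ⟨Finset.univ.sup N₀, fun N hN => ?_⟩
  have hε : ∀ i, ∃ ε : B, p i ≤ P →
      ε ∈ P ∧ v i ((δ₁ i : F) * (z i : F) ^ N - ε) < 1 ∧ ∀ j, j ≠ i → ε ∈ p j := by
    intro i
    by_cases hi : p i ≤ P
    · obtain ⟨ε, h1, h2, h3⟩ := (hin i hi).2.2.2.2 N ((Finset.le_sup (Finset.mem_univ i)).trans hN)
      exact ⟨ε, fun _ => ⟨h1, h2, h3⟩⟩
    · exact ⟨0, fun h' => absurd h' hi⟩
  choose ε hε using hε
  set f : ι → B := fun i => if p i ≤ P then s i ^ N * δ₁ i else d i with hf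
  set κ : ι → B := fun i => ∏ j ∈ Finset.univ.erase i, f j with hκ
  set ιP : Finset ι := Finset.univ.filter fun i => p i ≤ P with hιP
  have hfP : ∀ i, f i ∉ P := by
    intro i
    by_cases hi : p i ≤ P
    · simp only [hf, if_pos hi]
      intro hmem
      rcases hP.isPrime.mem_or_mem hmem with h1 | h1
      · exact (hin i hi).1 (hP.isPrime.mem_of_pow_mem N h1)
      · exact (hin i hi).2.2.2.1 h1
    · simp only [hf, if_neg hi]
      exact (hout i hi).2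
  have hδκ : ∀ i, (∏ j, f j) = f i * κ i := fun i =>
    (Finset.mul_prod_erase Finset.univ f (Finset.mem_univ i)).symm
  refine ⟨∏ j, f j, ?_, ∑ i ∈ ιP, κ i * ε i, ?_, ?_⟩
  · intro hmem
    obtain ⟨i, -, hi⟩ := (hP.isPrime.prod_mem_iff).mp hmem
    exact hfP i hi
  · refine P.sum_mem fun i hi => P.mul_mem_left _ (hε i ?_).1
    exact (Finset.mem_filter.mp hi).2
  · intro i
    -- the summands `j ≠ i` lie in `p i`
    have hrest : ∑ j ∈ ιP.erase i, κ j * ε j ∈ p i := by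
      refine (p i).sum_mem fun j hj => (p i).mul_mem_left _ ?_
      have hj' := Finset.mem_erase.mp hj
      exact (hε j (Finset.mem_filter.mp hj'.2).2).2.2 i (Ne.symm hj'.1)
    have hxN : v i (x ^ N) ≤ 1 := by
      rw [map_pow]; exact pow_le_one₀ zero_le (hx i)
    by_cases hi : p i ≤ P
    · have hiP : i ∈ ιP := Finset.mem_filter.mpr ⟨Finset.mem_univ i, hi⟩
      have hsum : ∑ j ∈ ιP, κ j * ε j = κ i * ε i + ∑ j ∈ ιP.erase i, κ j * ε j :=
        (Finset.add_sum_erase ιP (fun j => κ j * ε j) hiP).symm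
      obtain ⟨-, -, hsz, -, -⟩ := hin i hi
      obtain ⟨-, hε2, -⟩ := hε i hi
      have hsx : v i ((s i : F) * x) ≤ 1 := by
        rw [map_mul]; exact mul_le_one₀ (V.le_one i _) zero_le (hx i)
      have c1 : v i (((s i : F) * x) ^ N - (z i : F) ^ N) < 1 := cong_pow (v i) hsx hsz N
      have c2 : v i ((δ₁ i : F) * ((s i : F) * x) ^ N - (δ₁ i : F) * (z i : F) ^ N) < 1 :=
        cong_mul_left (v i) (V.le_one i _) c1
      have c3 : v i ((δ₁ i : F) * ((s i : F) * x) ^ N - ε i) < 1 := cong_trans (v i) c2 hε2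
      have c4 : v i ((κ i : F) * ((δ₁ i : F) * ((s i : F) * x) ^ N) - (κ i : F) * ε i) < 1 :=
        cong_mul_left (v i) (V.le_one i _) c3
      have c5 : v i (((∑ j ∈ ιP.erase i, κ j * ε j : B) : F)) < 1 := (V.mem_p i _).mp hrest
      have e1 : (((∏ j, f j : B) : F)) * x ^ N
          = (κ i : F) * ((δ₁ i : F) * ((s i : F) * x) ^ N) := by
        rw [hδκ i]
        simp only [hf, if_pos hi]
        push_cast
        ring
      rw [e1, hsum]
      have e2 : (κ i : F) * ((δ₁ i : F) * ((s i : F) * x) ^ N)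
            - ((κ i * ε i + ∑ j ∈ ιP.erase i, κ j * ε j : B) : F)
          = ((κ i : F) * ((δ₁ i : F) * ((s i : F) * x) ^ N) - (κ i : F) * ε i)
            - ((∑ j ∈ ιP.erase i, κ j * ε j : B) : F) := by
        push_cast
        ring
      rw [e2]
      exact Valuation.map_sub_lt _ c4 c5
    · have hiP : i ∉ ιP := fun hmem => hi (Finset.mem_filter.mp hmem).2
      rw [Finset.erase_eq_of_notMem hiP] at hrest
      have c5 : v i (((∑ j ∈ ιP, κ j * ε j : B) : F)) < 1 := (V.mem_p i _).mp hrest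
      have hδ : (∏ j, f j) ∈ p i := by
        rw [hδκ i]
        refine (p i).mul_mem_right _ ?_
        simp only [hf, if_neg hi]
        exact (hout i hi).1
      have c6 : v i (((∏ j, f j : B) : F) * x ^ N) < 1 := by
        rw [map_mul]
        exact mul_lt_one_of_lt_of_le ((V.mem_p i _).mp hδ) hxN
      exact Valuation.map_sub_lt _ c6 c5

end Fermat.Agent.CAR.NS
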