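import Fermat.Agent.CAR.NS.CondA

/-!
# CAR / COND : approximation on one branch  (package CAR-COND-3)
-/

set_option autoImplicit false

namespace Fermat.Agent.CAR.NS

open Fermat.Agent.GAL

variable {F Γ₀ ι : Type*} [Field F] [LinearOrderedCommGroupWithZero Γ₀] [Fintype ι]
  {B : Subring F} {v : ι → Valuation F Γ₀} {p : ι → Ideal B}

/-- one branch.  `i` a branch through `P`, `z ∈ P`.  For `N` large there is `δ₁ ∉ P` and `ε ∈ P` with
`ε ≡ δ₁ z^N` along `v i` and `ε ≡ 0` along all the other `v j`.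
PROOF. `𝔞 := ⨅ j ∈ univ.erase i, p j` is not `≤ p i` (`p i` prime, `V.ne`; `Ideal.IsPrime.inf_le'` or
`exists_notMem_mem` with `P := p i`).  `ded_pow_mem (p i) 𝔞 P` gives `N₀, δ₁`; `δ₁ z^N = ε + r`, `ε ∈ 𝔞`, `r ∈ p i`
(`Submodule.mem_sup`); `ε = δ₁ z^N - r ∈ P` if `N ≥ 1` (so take `max N₀ 1`). -/
theorem approx_branch (V : Vert B v p) {P : Ideal B} (hP : P.IsMaximal) {i : ι} (hi : p i ≤ P) :
    ∃ (N₀ : ℕ) (δ₁ : B), δ₁ ∉ P ∧ ∀ z ∈ P, ∀ N, N₀ ≤ N → ∃ ε ∈ P, v i ((δ₁ : F) * (z : F) ^ N - ε) < 1 ∧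
      ∀ j, j ≠ i → ε ∈ p j := by
  classical
  have hprime : (p i).IsPrime := V.isPrime i
  -- the ideal `𝔞`
  obtain ⟨δ₀, hδ₀, hδ₀mem⟩ := exists_notMem_mem p hprime (Finset.univ.erase i)
    (fun j hj => V.ne i j (Finset.ne_of_mem_erase hj).symm)
  have h𝔞 : ¬ (⨅ j ∈ Finset.univ.erase i, p j) ≤ p i := by
    intro hle
    apply hδ₀
    apply hle
    rw [Ideal.mem_iInf]
    intro j
    rw [Ideal.mem_iInf]
    intro hj
    exact hδ₀mem j hj
  obtain ⟨N₀, δ₁, hδ₁, hN⟩ := ded_pow_mem (p i) (⨅ j ∈ Finset.univ.erase i, p j) P (V.ded i) hP hi h𝔞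
  refine ⟨max N₀ 1, δ₁, hδ₁, fun z hz N hNN => ?_⟩
  have hN0 : N₀ ≤ N := le_trans (le_max_left _ _) hNN
  have hN1 : 1 ≤ N := le_trans (le_max_right _ _) hNN
  obtain ⟨ε, hε, r, hr, hsum⟩ := Submodule.mem_sup.1 (hN z hz N hN0)
  have hzN : δ₁ * z ^ N ∈ P := P.mul_mem_left _ (P.pow_mem_of_mem hz N hN1)
  refine ⟨ε, ?_, ?_, fun j hj => ?_⟩
  · have : ε = δ₁ * z ^ N - r := by rw [← hsum]; ring
    rw [this]
    exact P.sub_mem hzN (hi hr)
  · have h1 : (δ₁ : F) * (z : F) ^ N - (ε : F) = ((r : B) : F) := by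
      have := congrArg (fun b : B => (b : F)) hsum
      simp only [Subring.coe_add, Subring.coe_mul, Subring.coe_pow] at this
      rw [← this]; ring
    rw [h1]
    exact (V.mem_p i r).1 hr
  · rw [Ideal.mem_iInf] at hε
    have := hε j
    rw [Ideal.mem_iInf] at this
    exact this (Finset.mem_erase.2 ⟨hj, Finset.mem_univ j⟩)

end Fermat.Agent.CAR.NS
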