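import Fermat.Agent.CAR.NS.Basic

/-!
# CAR / COND : Frobenius congruence, Euler  (package CAR-COND-2)
-/

set_option autoImplicit false

namespace Fermat.Agent.CAR.NS

open Fermat.Agent.GAL

variable {F Γ₀ ι : Type*} [Field F] [LinearOrderedCommGroupWithZero Γ₀]

/-- Frobenius congruence.  PROOF: `exists_add_pow_prime_pow_eq` in the subring `u.integer`. -/
theorem frob_congr (u : Valuation F Γ₀) {q : ℕ} (hq : q.Prime) (hqv : u (q : F) < 1) {c x : F}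
    (hc : u c ≤ 1) (hx : u x ≤ 1) (a : ℕ) :
    u ((c + x) ^ (q ^ a) - (c ^ (q ^ a) + x ^ (q ^ a))) < 1 := by
  obtain ⟨r, hr⟩ := exists_add_pow_prime_pow_eq hq (⟨c, hc⟩ : u.integer) (⟨x, hx⟩ : u.integer) a
  have h1 := congrArg (fun z : u.integer => (z : F)) hr
  have h2 : (c + x) ^ (q ^ a) = c ^ (q ^ a) + x ^ (q ^ a) + (q : F) * c * x * (r : F) := by
    simpa using h1
  have h3 : (c + x) ^ (q ^ a) - (c ^ (q ^ a) + x ^ (q ^ a)) = (q : F) * (c * x * (r : F)) := by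
    rw [h2]; ring
  rw [h3, map_mul]
  refine mul_lt_one_of_lt_of_le hqv ?_
  rw [map_mul, map_mul]
  exact mul_le_one' (mul_le_one' hc hx) r.2

/-- Euler: arbitrarily large powers of `q` are `≡ 1 mod n`. -/
theorem exists_pow_eq {q n : ℕ} (hq : 1 < q) (hn : Nat.Coprime n q) (hn0 : 0 < n) (N₀ : ℕ) :
    ∃ a m : ℕ, N₀ ≤ q ^ a ∧ q ^ a = 1 + n * m := by
  have hφ : 0 < Nat.totient n := Nat.totient_pos.mpr hn0
  have h1 : q ^ (Nat.totient n * N₀) ≡ 1 [MOD n] := by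
    have h := (Nat.ModEq.pow_totient hn.symm).pow N₀
    rwa [one_pow, ← pow_mul] at h
  have hpos : 1 ≤ q ^ (Nat.totient n * N₀) := Nat.one_le_pow _ _ (by omega)
  obtain ⟨m, hm⟩ := (Nat.modEq_iff_dvd' hpos).mp h1.symm
  refine ⟨Nat.totient n * N₀, m, ?_, by omega⟩
  calc N₀ ≤ q ^ N₀ := (Nat.lt_pow_self hq).le
    _ ≤ q ^ (Nat.totient n * N₀) :=
      Nat.pow_le_pow_right (by omega) (Nat.le_mul_of_pos_left _ hφ)

end Fermat.Agent.CAR.NS
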