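import Fermat.Agent.CAR.NS.CondB
import Fermat.Agent.CAR.NS.CondF

/-!
# CAR / COND : the local step  (package CAR-COND-5)
-/

set_option autoImplicit false

namespace Fermat.Agent.CAR.NS

open Fermat.Agent.GAL

variable {F Γ₀ ι : Type*} [Field F] [LinearOrderedCommGroupWithZero Γ₀] [Fintype ι]
  {B : Subring F} {v : ι → Valuation F Γ₀} {p : ι → Ideal B}

/-- (C4b) local step.
PROOF. `x := φ - c`; `v i φ ≤ 1` (`Lam.val_le_one`, `val_one_of_sub`), so `v i x ≤ 1`.  `approx_pow` gives `N₀`;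
`exists_pow_eq` gives `N = q^a = 1 + n m ≥ N₀`; then `δ, β₁`.  `G := δ * ((φ^n w)^m * φ) ∈ Lam` (`Lam.smul_mem`
twice, `φ^n w ∈ B`).  `(φ^n w)^m φ = φ^N w^m ≡ φ^N` (`cong_pow` for `w ≡ 1`), `φ^N = (c + x)^N ≡ c^N + x^N`
(`frob_congr`), so `G ≡ δ c^N + δ x^N ≡ δ c^N + β₁ =: β`, and `β ∉ P` since `δ c^N ∉ P`, `β₁ ∈ P`. -/
theorem cond_local (V : Vert B v p) {q n : ℕ} (hq : q.Prime) (hqv : ∀ i, v i (q : F) < 1)
    (hn : Nat.Coprime n q) {w : F} (hw : ∀ i, v i (w - 1) < 1) {P : Ideal B} (hP : P.IsMaximal)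
    {φ : F} (hφ : φ ∈ Lam B n w) {c : B} (hc : c ∉ P) (h : ∀ i, p i ≤ P → Val B (v i) P φ c) :
    ∃ β : B, β ∉ P ∧ ∃ G ∈ Lam B n w, ∀ i, v i (G - β) < 1 := by
  have hn0 : 0 < n := by
    rcases Nat.eq_zero_or_pos n with rfl | h0
    · rw [Nat.coprime_zero_left] at hn
      exact absurd hn hq.one_lt.ne'
    · exact h0
  have hw1 : ∀ i, v i w = 1 := fun i => val_one_of_sub (v i) (hw i)
  have hφ1 : ∀ i, v i φ ≤ 1 := fun i => Lam.val_le_one V hn0 (hw1 i) hφ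
  have hx : ∀ i, v i (φ - c) ≤ 1 := fun i =>
    ((v i).map_sub _ _).trans (max_le (hφ1 i) (V.le_one i c))
  obtain ⟨N₀, hN₀⟩ := approx_pow V hP hx h
  obtain ⟨a, m, haN, ham⟩ := exists_pow_eq hq.one_lt hn hn0 N₀
  obtain ⟨δ, hδ, β₁, hβ₁, hcong⟩ := hN₀ (q ^ a) haN
  have hφB : φ ^ n * w ∈ B := hφ
  refine ⟨δ * c ^ (q ^ a) + β₁, ?_, (δ : F) * ((((⟨φ ^ n * w, hφB⟩ : B) ^ m : B) : F) * φ),
    Lam.smul_mem δ (Lam.smul_mem _ hφ), fun i => ?_⟩
  · intro hmem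
    have h1 : δ * c ^ (q ^ a) ∈ P := by
      have := P.sub_mem hmem hβ₁
      rwa [add_sub_cancel_right] at this
    rcases hP.isPrime.mem_or_mem h1 with h2 | h2
    · exact hδ h2
    · exact hc (hP.isPrime.mem_of_pow_mem _ h2)
  · have e1 : (((⟨φ ^ n * w, hφB⟩ : B) ^ m : B) : F) * φ = φ ^ (q ^ a) * w ^ m := by
      rw [ham, Subring.coe_pow, mul_pow, ← pow_mul, pow_add, pow_one]
      ring
    have c1 : v i (w ^ m - 1 ^ m) < 1 := cong_pow (v i) (hw1 i).le (hw i) m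
    have c2 : v i (φ ^ (q ^ a) * w ^ m - φ ^ (q ^ a) * 1 ^ m) < 1 :=
      cong_mul_left (v i) (by rw [map_pow]; exact pow_le_one' (hφ1 i) _) c1
    have c3 := frob_congr (v i) hq (hqv i) (V.le_one i c) (hx i) a
    rw [add_sub_cancel] at c3
    rw [one_pow, mul_one] at c2
    have c4 := cong_trans (v i) c2 c3
    have c5 := cong_mul_left (v i) (V.le_one i δ) c4
    have c6 := hcong i
    have e2 : (δ : F) * ((((⟨φ ^ n * w, hφB⟩ : B) ^ m : B) : F) * φ)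
          - ((δ * c ^ (q ^ a) + β₁ : B) : F)
        = ((δ : F) * (φ ^ (q ^ a) * w ^ m)
            - (δ : F) * ((c : F) ^ (q ^ a) + (φ - c) ^ (q ^ a)))
          + ((δ : F) * (φ - c) ^ (q ^ a) - β₁) := by
      rw [e1]
      push_cast
      ring
    rw [e2]
    exact (v i).map_add_lt c5 c6

end Fermat.Agent.CAR.NS
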