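import Fermat.Agent.CAR.NS.VR

/-!
# CAR / NS : a generator of the reduction of `Lam` at `P`  (package CAR-NS-4)
-/

set_option autoImplicit false

namespace Fermat.Agent.CAR.NS

open Fermat.Agent.GAL

variable {F Γ₀ ι : Type*} [Field F] [LinearOrderedCommGroupWithZero Γ₀]
  {B : Subring F} {v : ι → Valuation F Γ₀} {p : ι → Ideal B}

/-- a total transitive relation has a greatest element on a nonempty finite set. -/
theorem MinGen_exists_greatest {α : Type*} (R : α → α → Prop) (htot : ∀ a b, R a b ∨ R b a)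
    (htrans : ∀ a b c, R a b → R b c → R a c) (s : Finset α) (hs : s.Nonempty) :
    ∃ m ∈ s, ∀ k ∈ s, R k m := by
  classical
  have hrefl : ∀ a, R a a := fun a => (htot a a).elim id id
  induction hs using Finset.Nonempty.cons_induction with
  | singleton a =>
    exact ⟨a, Finset.mem_singleton_self a, fun k hk => by
      rw [Finset.mem_singleton.1 hk]; exact hrefl a⟩
  | cons a s ha hs ih =>
    obtain ⟨m, hm, hmax⟩ := ih
    rcases htot a m with h | h
    · refine ⟨m, Finset.mem_cons_of_mem hm, fun k hk => ?_⟩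
      rcases Finset.mem_cons.1 hk with rfl | hk
      · exact h
      · exact hmax k hk
    · refine ⟨a, Finset.mem_cons_self a s, fun k hk => ?_⟩
      rcases Finset.mem_cons.1 hk with rfl | hk
      · exact hrefl _
      · exact htrans _ _ _ (hmax k hk) h

/-- (Step 2) among finitely many `g k` (`v i (g k) ≤ 1`, one of them a `v i`-unit) one, `g k₀`, generates the reductions of
all the others over the local ring of the branch `i` at `P`.
PROOF. On `T := {k | v i (g k) = 1}` (nonempty finite) define `k ≼ l :⇔ ∃ s b, s ∉ P ∧ v i (s g k - b g l) < 1`.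
It is total (`vr_of_ded` for `x = g k / g l`, multiply the congruence by `g l`) and transitive
(`s g k ≡ b g l`, `s' g l ≡ b' g m` ⇒ `s s' g k ≡ b b' g m`; `P` prime).  A finite nonempty set with a total transitive
relation has a greatest element (induction on the Finset: `Finset.induction_on` / `Finset.Nonempty.cons_induction`).
For `k ∉ T`: `s = 1`, `b = 0`. -/
theorem exists_min_gen (V : Vert B v p) {P : Ideal B} (hP : P.IsMaximal) {i : ι} (hi : p i ≤ P) {r : ℕ}
    (g : Fin r → F) (hg1 : ∀ k, v i (g k) ≤ 1) (h1 : ∃ k, v i (g k) = 1) :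
    ∃ k₀, v i (g k₀) = 1 ∧ ∀ k, ∃ s b : B, s ∉ P ∧ v i ((s : F) * g k - b * g k₀) < 1 := by
  have hone : (1 : B) ∉ P := (Ideal.ne_top_iff_one P).1 hP.ne_top
  -- a non-unit is below everything
  have hsmall : ∀ k l, v i (g k) < 1 →
      ∃ s b : B, s ∉ P ∧ v i ((s : F) * g k - b * g l) < 1 := by
    intro k l hk
    refine ⟨1, 0, hone, ?_⟩
    simpa using hk
  have htot : ∀ k l, (∃ s b : B, s ∉ P ∧ v i ((s : F) * g k - b * g l) < 1) ∨
      (∃ s b : B, s ∉ P ∧ v i ((s : F) * g l - b * g k) < 1) := by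
    intro k l
    rcases lt_or_eq_of_le (hg1 k) with hk | hk
    · exact Or.inl (hsmall k l hk)
    rcases lt_or_eq_of_le (hg1 l) with hl | hl
    · exact Or.inr (hsmall l k hl)
    have hl0 : g l ≠ 0 := by
      intro h0
      rw [h0, map_zero] at hl
      exact zero_ne_one hl
    have hx : v i (g k / g l) = 1 := by rw [map_div₀, hk, hl, div_one]
    rcases vr_of_ded V hP hi hx with ⟨s, b, hs, hsb⟩ | ⟨s, b, hs, hsb⟩
    · refine Or.inl ⟨s, b, hs, ?_⟩
      have e : (s : F) * g k - b * g l = ((s : F) * (g k / g l) - b) * g l := by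
        field_simp
      rw [e, map_mul, hl, mul_one]
      exact hsb
    · refine Or.inr ⟨s, b, hs, ?_⟩
      have e : (s : F) * g l - b * g k = ((s : F) - b * (g k / g l)) * g l := by
        field_simp
      rw [e, map_mul, hl, mul_one]
      exact hsb
  have htrans : ∀ k l m, (∃ s b : B, s ∉ P ∧ v i ((s : F) * g k - b * g l) < 1) →
      (∃ s b : B, s ∉ P ∧ v i ((s : F) * g l - b * g m) < 1) →
      ∃ s b : B, s ∉ P ∧ v i ((s : F) * g k - b * g m) < 1 := by
    rintro k l m ⟨s, b, hs, hsb⟩ ⟨s', b', hs', hsb'⟩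
    refine ⟨s' * s, b * b', fun h => (hP.isPrime.mem_or_mem h).elim hs' hs, ?_⟩
    have c1 : v i ((s' : F) * ((s : F) * g k) - (s' : F) * ((b : F) * g l)) < 1 :=
      cong_mul_left (v i) (V.le_one i s') hsb
    have c2 : v i ((b : F) * ((s' : F) * g l) - (b : F) * ((b' : F) * g m)) < 1 :=
      cong_mul_left (v i) (V.le_one i b) hsb'
    have e : ((s' * s : B) : F) * g k - ((b * b' : B) : F) * g m
        = ((s' : F) * ((s : F) * g k) - (s' : F) * ((b : F) * g l))
          + ((b : F) * ((s' : F) * g l) - (b : F) * ((b' : F) * g m)) := by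
      push_cast
      ring
    rw [e]
    exact (v i).map_add_lt c1 c2
  obtain ⟨k₁, hk₁⟩ := h1
  obtain ⟨k₀, -, hmax⟩ := MinGen_exists_greatest
    (fun k l => ∃ s b : B, s ∉ P ∧ v i ((s : F) * g k - b * g l) < 1) htot htrans Finset.univ
    ⟨k₁, Finset.mem_univ k₁⟩
  refine ⟨k₀, ?_, fun k => hmax k (Finset.mem_univ k)⟩
  rcases lt_or_eq_of_le (hg1 k₀) with hk | hk
  · exfalso
    obtain ⟨s, b, hs, hsb⟩ := hmax k₁ (Finset.mem_univ k₁)
    have hs1 : v i (s : F) = 1 := (V.notMem_iff i s).1 fun h => hs (hi h)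
    have h2 : v i ((b : F) * g k₀) < 1 := by
      rw [map_mul]
      exact (mul_le_of_le_one_left' (V.le_one i b)).trans_lt hk
    have h3 : v i ((s : F) * g k₁) < 1 := by
      have := (v i).map_add_lt hsb h2
      rwa [sub_add_cancel] at this
    rw [map_mul, hs1, hk₁, mul_one] at h3
    exact lt_irrefl _ h3
  · exact hk

end Fermat.Agent.CAR.NS
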