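import Fermat.Agent.CAR.NS.Defs

/-!
# CAR / NS : Nakayama by determinants  (package CAR-NS-5)
-/

set_option autoImplicit false

namespace Fermat.Agent.CAR.NS

open Fermat.Agent.GAL

variable {F Γ₀ ι : Type*} [Field F] [LinearOrderedCommGroupWithZero Γ₀]
  {B : Subring F}

/-- PROOF. `M := s • 1 - ν • A : Matrix (Fin r) (Fin r) B`, `d := M.det`.  The hypothesis says
`(M.map (↑)).mulVec g = fun k => c k * g k₀`; multiply by `M.adjugate` (`Matrix.adjugate_mul`):
`d g k = (∑ l, adj k l * c l) g k₀`.  `d ∉ P`: under `Ideal.Quotient.mk P`, `M ↦ s̄ • 1` (`RingHom.map_det`,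
`ν ↦ 0`), so `d̄ = s̄ ^ r ≠ 0` (`Matrix.det_smul`, `det_one`; `P` prime). -/
theorem nak_det {r : ℕ} (g : Fin r → F) (k₀ : Fin r) (s ν : B) (A : Matrix (Fin r) (Fin r) B) (c : Fin r → B)
    (h : ∀ k, (s : F) * g k = c k * g k₀ + ν * ∑ l, (A k l : F) * g l)
    {P : Ideal B} (hP : P.IsPrime) (hs : s ∉ P) (hν : ν ∈ P) :
    ∃ d : B, d ∉ P ∧ ∀ k, ∃ b : B, (d : F) * g k = b * g k₀ := by
  classical
  set M : Matrix (Fin r) (Fin r) B := s • (1 : Matrix (Fin r) (Fin r) B) - ν • A with hM
  set φ : B →+* F := B.subtype with hφ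
  refine ⟨M.det, ?_, fun k => ⟨∑ l, M.adjugate k l * c l, ?_⟩⟩
  · -- the determinant is a unit mod `P`
    intro hd
    have h1 : Ideal.Quotient.mk P M.det = 0 := Ideal.Quotient.eq_zero_iff_mem.mpr hd
    have hν0 : Ideal.Quotient.mk P ν = 0 := Ideal.Quotient.eq_zero_iff_mem.mpr hν
    have h2 : (Ideal.Quotient.mk P).mapMatrix M
        = (Ideal.Quotient.mk P s) • (1 : Matrix (Fin r) (Fin r) (B ⧸ P)) := by
      ext i j
      rw [RingHom.mapMatrix_apply, Matrix.map_apply, hM, Matrix.sub_apply, Matrix.smul_apply,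
        Matrix.smul_apply, Matrix.smul_apply, Matrix.one_apply, Matrix.one_apply, smul_eq_mul,
        smul_eq_mul, smul_eq_mul, map_sub, map_mul, map_mul, hν0, zero_mul, sub_zero]
      split_ifs <;> simp
    rw [RingHom.map_det, h2, Matrix.det_smul, Matrix.det_one, mul_one, Fintype.card_fin] at h1
    have h3 : Ideal.Quotient.mk P s = 0 := by
      have : IsDomain (B ⧸ P) := Ideal.Quotient.isDomain P
      exact pow_eq_zero_iff (n := r) (by rintro rfl; exact k₀.elim0) |>.mp h1
    exact hs (Ideal.Quotient.eq_zero_iff_mem.mp h3)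
  · have h1 : ∀ j, ∑ l, (M j l : F) * g l = c j * g k₀ := by
      intro j
      have e : ∀ l, (M j l : F) * g l
          = (s : F) * ((if j = l then (1 : F) else 0) * g l) - ν * ((A j l : F) * g l) := by
        intro l
        simp only [hM, Matrix.sub_apply, Matrix.smul_apply, Matrix.one_apply, smul_eq_mul]
        split_ifs <;> push_cast <;> ring
      rw [Finset.sum_congr rfl fun l _ => e l, Finset.sum_sub_distrib, ← Finset.mul_sum,
        ← Finset.mul_sum]
      simp only [ite_mul, one_mul, zero_mul, Finset.sum_ite_eq, Finset.mem_univ, if_true]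
      rw [h j]
      ring
    have h2 : ∀ l, ∑ j, (M.adjugate k j : F) * (M j l : F) = if k = l then (M.det : F) else 0 := by
      intro l
      have := congrFun (congrFun (Matrix.adjugate_mul M) k) l
      rw [Matrix.mul_apply, Matrix.smul_apply, Matrix.one_apply, smul_eq_mul] at this
      have h3 := congrArg φ this
      rw [map_sum] at h3
      simp only [map_mul] at h3
      rw [show (∑ j, (M.adjugate k j : F) * (M j l : F)) = ∑ j, φ (M.adjugate k j) * φ (M j l) from rfl,
        h3]
      split_ifs <;> simp [hφ]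
    calc (M.det : F) * g k = ∑ l, (if k = l then (M.det : F) else 0) * g l := by
          simp
      _ = ∑ l, (∑ j, (M.adjugate k j : F) * (M j l : F)) * g l := by
          exact Finset.sum_congr rfl fun l _ => by rw [h2 l]
      _ = ∑ j, (M.adjugate k j : F) * ∑ l, (M j l : F) * g l := by
          simp only [Finset.sum_mul, Finset.mul_sum]
          rw [Finset.sum_comm]
          exact Finset.sum_congr rfl fun j _ => Finset.sum_congr rfl fun l _ => by ring
      _ = ∑ j, (M.adjugate k j : F) * (c j * g k₀) := by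
          exact Finset.sum_congr rfl fun j _ => by rw [h1 j]
      _ = ((∑ l, M.adjugate k l * c l : B) : F) * g k₀ := by
          push_cast
          rw [Finset.sum_mul]
          exact Finset.sum_congr rfl fun j _ => by ring

end Fermat.Agent.CAR.NS
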