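import Fermat.Agent.CAR.NS.LemA
import Fermat.Agent.CAR.NS.MinGen
import Fermat.Agent.CAR.NS.Nak

/-!
# CAR / NS : `Lam` is cyclic near `P`  (package CAR-NS-6)
-/

set_option autoImplicit false

namespace Fermat.Agent.CAR.NS

open Fermat.Agent.GAL

variable {F Γ₀ ι : Type*} [Field F] [LinearOrderedCommGroupWithZero Γ₀]
  {B : Subring F} {v : ι → Valuation F Γ₀} {p : ι → Ideal B}

/-- (Step 3) `Lam` finitely generated, `p i = (ν)` on `D(y)`, `y ∉ P ⊇ p i`, and `Lam` contains a `v i`-unit.  Then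
there are `φ₀ ∈ Lam`, `v i φ₀ = 1`, and `d ∉ P` with `d Lam ⊆ B φ₀`.
PROOF. `v i (g k) ≤ 1` (`Lam.val_le_one`); some `v i (g k) = 1` (else `ψ = ∑ b k g k` has `v i ψ < 1`:
`Valuation.map_sum_lt`).  `exists_min_gen` gives `k₀`, `s k`, `b k`.  `s k g k - b k g k₀ ∈ Lam` has `v i < 1`, so by `lemA`
`(y/ν)(s k g k - b k g k₀) ∈ Lam`, `= ∑ l, A' k l g l` by `FG`; hence (`ν ≠ 0` or everything is trivial:
if `ν = 0` then `s k g k - b k g k₀ = 0` by `GenOn`) `y s k g k = y b k g k₀ + ν ∑ l A' k l g l`.  Let `S := y ∏ l, s l`,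
multiply the `k`-th equation by `∏ l ≠ k, s l`: hypothesis of `nak_det` with `s := S`.  `ν ∈ p i ≤ P`.
Then `d g k = b' k g k₀` for all `k`, and every `φ ∈ Lam` is `∑ a k g k`. -/
theorem exists_cyclic (V : Vert B v p) {n : ℕ} (hn : 0 < n) {w : F} {i : ι} (hw : v i w = 1)
    {r : ℕ} {g : Fin r → F} (hgL : ∀ k, g k ∈ Lam B n w)
    (FG : ∀ φ ∈ Lam B n w, ∃ b : Fin r → B, φ = ∑ k, (b k : F) * g k)
    {P : Ideal B} (hP : P.IsMaximal) (hi : p i ≤ P) {ν y : B} (hy : y ∉ P) (hg : GenOn B (v i) (p i) ν y)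
    (h1 : ∃ ψ ∈ Lam B n w, v i ψ = 1) :
    ∃ φ₀ ∈ Lam B n w, v i φ₀ = 1 ∧ ∃ d : B, d ∉ P ∧ ∀ φ ∈ Lam B n w, ∃ b : B, (d : F) * φ = b * φ₀ := by
  classical
  have hg1 : ∀ k, v i (g k) ≤ 1 := fun k => Lam.val_le_one V hn hw (hgL k)
  have h1' : ∃ k, v i (g k) = 1 := by
    by_contra hcon
    push Not at hcon
    obtain ⟨ψ, hψ, hψ1⟩ := h1
    obtain ⟨b, rfl⟩ := FG ψ hψ
    have hlt : v i (∑ k, (b k : F) * g k) < 1 := by
      refine Valuation.map_sum_lt (v i) one_ne_zero fun k _ => ?_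
      rw [map_mul]
      rw [mul_comm]
      exact mul_lt_one_of_lt_of_le (lt_of_le_of_ne (hg1 k) (hcon k)) (V.le_one i _)
    exact hlt.ne hψ1
  obtain ⟨k₀, hk₀, hmin⟩ := exists_min_gen V hP hi g hg1 h1'
  choose s b hs hsb using hmin
  have heL : ∀ k, (s k : F) * g k - b k * g k₀ ∈ Lam B n w := fun k =>
    Lam.sub_mem V.ic hn (Lam.smul_mem (s k) (hgL k)) (Lam.smul_mem (b k) (hgL k₀))
  have hA : ∀ k, ∃ a : Fin r → B,
      (y : F) / ν * ((s k : F) * g k - b k * g k₀) = ∑ l, (a l : F) * g l := fun k =>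
    FG _ (lemA V hn hw hg (heL k) (hsb k))
  choose A' hA' using hA
  have hkey : ∀ k, (y : F) * ((s k : F) * g k - b k * g k₀) = ν * ∑ l, (A' k l : F) * g l := by
    intro k
    by_cases hν0 : (ν : F) = 0
    · have h0 : v i ((s k : F) * g k - b k * g k₀) ≤ v i (ν : F) := hg.2.1 _ (hsb k)
      rw [hν0, map_zero, le_zero_iff, map_eq_zero] at h0
      rw [h0, hν0, mul_zero, zero_mul]
    · rw [← hA' k]
      field_simp
  set Pi : Fin r → B := fun k => ∏ l ∈ Finset.univ.erase k, s l with hPi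
  set S : B := y * ∏ l, s l with hS
  have hSk : ∀ k, S = y * (s k * Pi k) := fun k => by
    rw [hS, hPi, Finset.mul_prod_erase Finset.univ s (Finset.mem_univ k)]
  have hSP : S ∉ P := by
    intro hmem
    rcases hP.isPrime.mem_or_mem hmem with h' | h'
    · exact hy h'
    · obtain ⟨l, -, hl⟩ := (hP.isPrime.prod_mem_iff).mp h'
      exact hs l hl
  have hνP : ν ∈ P := hi ((V.mem_p i ν).mpr hg.1)
  obtain ⟨d, hd, hdg⟩ := nak_det g k₀ S ν (Matrix.of fun k l => Pi k * A' k l)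
    (fun k => Pi k * (y * b k)) (fun k => by
      have e := hkey k
      have e2 : (S : F) * g k = (Pi k : F) * ((y : F) * ((s k : F) * g k - b k * g k₀))
          + (Pi k : F) * ((y : F) * b k) * g k₀ := by
        rw [hSk k]
        push_cast
        ring
      rw [e2, e]
      simp only [Matrix.of_apply]
      push_cast
      rw [Finset.mul_sum, Finset.mul_sum, Finset.mul_sum, add_comm]
      congr 1
      refine Finset.sum_congr rfl fun l _ => ?_
      ring) hP.isPrime hSP hνP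
  choose b' hb' using hdg
  refine ⟨g k₀, hgL k₀, hk₀, d, hd, fun φ hφ => ?_⟩
  obtain ⟨a, rfl⟩ := FG φ hφ
  refine ⟨∑ k, a k * b' k, ?_⟩
  push_cast
  rw [Finset.mul_sum, Finset.sum_mul]
  refine Finset.sum_congr rfl fun k _ => ?_
  rw [mul_left_comm, hb' k]
  ring

end Fermat.Agent.CAR.NS
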