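import Fermat.Agent.CAR.NS.Basic

/-!
# CAR / NS : Lemma A' (division by the local generator) and sections of valuation one  (package CAR-NS-1)
-/

set_option autoImplicit false

namespace Fermat.Agent.CAR.NS

open Fermat.Agent.GAL

variable {F Γ₀ ι : Type*} [Field F] [LinearOrderedCommGroupWithZero Γ₀]
  {B : Subring F} {v : ι → Valuation F Γ₀} {p : ι → Ideal B}

/-- **Lemma A'.**  `φ ∈ Lam` vanishing along `v i`, `p i = (ν)` on `D(y)`.  Then `(y/ν) φ ∈ Lam`.
PROOF. If `ν = 0` the claim is `0 ∈ Lam`.  Otherwise let `z₀ = φ^n w ∈ B`; `v i z₀ = (v i φ)^n ≤ (v i ν)^n`.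
By induction on `k ≤ n`: `z_k := y^k z₀ / ν^k ∈ B`.  Indeed for `k < n`, `v i z_k ≤ (v i ν)^(n-k) < 1`, so
`z_k ∈ p i` (`V.mem_p`), hence `y z_k = ν b`, `z_(k+1) = b`.  Finally `z_n = ((y/ν) φ)^n w`. -/
theorem lemA (V : Vert B v p) {n : ℕ} (hn : 0 < n) {w : F} {i : ι} (hw : v i w = 1) {ν y : B}
    (hg : GenOn B (v i) (p i) ν y) {φ : F} (hφ : φ ∈ Lam B n w) (hφv : v i φ < 1) :
    (y : F) / ν * φ ∈ Lam B n w := by
  obtain ⟨hν1, hνmax, hgen⟩ := hg
  by_cases hν0 : (ν : F) = 0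
  · rw [hν0, div_zero, zero_mul]
    exact Lam.zero_mem hn w
  have hvν0 : v i (ν : F) ≠ 0 := (Valuation.ne_zero_iff _).2 hν0
  have hφν : v i φ ≤ v i (ν : F) := hνmax φ hφv
  have key : ∀ k ≤ n, (y : F) ^ k * (φ ^ n * w) / (ν : F) ^ k ∈ B := by
    intro k
    induction k with
    | zero =>
      intro _
      have h0 : φ ^ n * w ∈ B := hφ
      simpa using h0
    | succ k ih =>
      intro hk
      have hkn : k < n := hk
      have hz := ih hkn.le
      have hzv : v i ((y : F) ^ k * (φ ^ n * w) / (ν : F) ^ k) < 1 := by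
        rw [map_div₀, map_mul, map_mul, map_pow, map_pow, map_pow, hw, mul_one,
          div_lt_one₀ (pow_pos (zero_lt_iff.2 hvν0) k)]
        calc v i (y : F) ^ k * v i φ ^ n ≤ 1 * v i φ ^ n :=
              mul_le_mul_left (pow_le_one' (V.le_one i y) k) _
          _ = v i φ ^ n := one_mul _
          _ ≤ v i (ν : F) ^ n := pow_le_pow_left' hφν n
          _ = v i (ν : F) ^ (n - k) * v i (ν : F) ^ k := by
              rw [← pow_add, Nat.sub_add_cancel hkn.le]
          _ < 1 * v i (ν : F) ^ k :=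
              mul_lt_mul_of_pos_right (pow_lt_one₀ zero_le hν1 (Nat.sub_pos_of_lt hkn).ne')
                (pow_pos (zero_lt_iff.2 hvν0) k)
          _ = v i (ν : F) ^ k := one_mul _
      obtain ⟨b, hb⟩ := hgen ⟨_, hz⟩ ((V.mem_p i ⟨_, hz⟩).2 hzv)
      have hb' : (y : F) * ((y : F) ^ k * (φ ^ n * w) / (ν : F) ^ k) = ν * b :=
        congrArg Subtype.val hb
      have e : (y : F) ^ (k + 1) * (φ ^ n * w) / (ν : F) ^ (k + 1) = b := by
        have h2 : (b : F) = (y : F) * ((y : F) ^ k * (φ ^ n * w) / (ν : F) ^ k) / ν := by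
          rw [hb']
          field_simp
        rw [h2]
        field_simp
        ring
      rw [e]
      exact b.2
  have h1 := key n le_rfl
  show ((y : F) / ν * φ) ^ n * w ∈ B
  have e : ((y : F) / ν * φ) ^ n * w = (y : F) ^ n * (φ ^ n * w) / (ν : F) ^ n := by
    rw [mul_pow, div_pow]
    ring
  rw [e]
  exact h1

/-- (AP-v) `Lam` contains a section which is a unit for `v j`.
PROOF. Start with `φ ≠ 0` in `Lam`; all elements of `Lam` have `v j ≤ 1` (`Lam.val_le_one`).  Claim: for all `k`,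
either some element of `Lam` has `v j = 1`, or `(y/ν)^k φ ∈ Lam` (induction with `lemA`).  Now `v j y = 1`
(`V.notMem_iff`), so `v j ((y/ν)^k φ) = v j φ / (v j ν)^k`, which is `> 1` for `k` large by `V.arch j`
(`(v j ν)^k < v j φ`; if `ν = 0` then `GenOn` forces `v j φ = 1` at once since `v j φ < 1 → v j φ ≤ 0`). -/
theorem exists_val_one (V : Vert B v p) {n : ℕ} (hn : 0 < n) {w : F} {j : ι} (hw : v j w = 1) {ν y : B}
    (hy : y ∉ p j) (hg : GenOn B (v j) (p j) ν y) (hne : ∃ φ ∈ Lam B n w, φ ≠ 0) :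
    ∃ φ ∈ Lam B n w, v j φ = 1 := by
  by_contra hcon
  have hlt : ∀ φ ∈ Lam B n w, v j φ < 1 := fun φ hφ =>
    lt_of_le_of_ne (Lam.val_le_one V hn hw hφ) fun h => hcon ⟨φ, hφ, h⟩
  obtain ⟨φ, hφ, hφ0⟩ := hne
  have hvφ0 : v j φ ≠ 0 := (Valuation.ne_zero_iff _).2 hφ0
  have hall : ∀ k : ℕ, ((y : F) / ν) ^ k * φ ∈ Lam B n w := by
    intro k
    induction k with
    | zero => simpa using hφ
    | succ k ih =>
      have := lemA V hn hw hg ih (hlt _ ih)
      rwa [← mul_assoc, ← pow_succ'] at this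
  have hvy : v j (y : F) = 1 := (V.notMem_iff j y).1 hy
  have hνφ : v j φ ≤ v j (ν : F) := hg.2.1 φ (hlt φ hφ)
  have hvν0 : v j (ν : F) ≠ 0 := fun h => hvφ0 (le_antisymm (h ▸ hνφ) zero_le)
  obtain ⟨m, hm⟩ := V.arch j (ν : F) hg.1 (v j φ) hvφ0
  have h1 := hlt _ (hall m)
  rw [map_mul, map_pow, map_div₀, hvy, one_div, inv_pow,
    inv_mul_lt_iff₀ (pow_pos (zero_lt_iff.2 hvν0) m), mul_one] at h1
  exact lt_asymm h1 hm

end Fermat.Agent.CAR.NS
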