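import Fermat.Agent.CAR.NS.Defs

/-!
# CAR / NS : the local ring of a branch at a closed point is a valuation ring (package CAR-NS-3a)
-/

set_option autoImplicit false

namespace Fermat.Agent.CAR.NS

open Fermat.Agent.GAL

/-- pure Dedekind statement used for `vr_of_ded`. -/
theorem ded_total_aux {R : Type*} [CommRing R] [IsDedekindDomain R] (𝔪 : Ideal R) (h𝔪 : 𝔪.IsMaximal)
    (a b : R) (ha : a ≠ 0) (hb : b ≠ 0) :
    (∃ s c : R, s ∉ 𝔪 ∧ s * a = c * b) ∨ (∃ s c : R, s ∉ 𝔪 ∧ s * b = c * a) := by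
  by_cases hbot : 𝔪 = ⊥
  · left
    refine ⟨b, a, ?_, mul_comm b a⟩
    rw [hbot, Ideal.mem_bot]
    exact hb
  · have hprime : 𝔪.IsPrime := h𝔪.isPrime
    have hdvr : IsDiscreteValuationRing (Localization.AtPrime 𝔪) :=
      IsLocalization.AtPrime.isDiscreteValuationRing_of_dedekind_domain R hbot
        (Localization.AtPrime 𝔪)
    have hinj : Function.Injective (algebraMap R (Localization.AtPrime 𝔪)) :=
      IsLocalization.injective _ 𝔪.primeCompl_le_nonZeroDivisors
    have key : ∀ a b : R, (∃ c : Localization.AtPrime 𝔪,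
        algebraMap R (Localization.AtPrime 𝔪) a * c = algebraMap R (Localization.AtPrime 𝔪) b) →
        ∃ s c : R, s ∉ 𝔪 ∧ s * b = c * a := by
      rintro a b ⟨c, hc⟩
      obtain ⟨⟨r, t⟩, hrt⟩ := IsLocalization.surj 𝔪.primeCompl c
      refine ⟨t, r, t.2, hinj ?_⟩
      simp only at hrt
      rw [map_mul, map_mul, ← hc, ← hrt]
      ring
    obtain ⟨c, hc | hc⟩ := ValuationRing.cond (algebraMap R (Localization.AtPrime 𝔪) a)
      (algebraMap R (Localization.AtPrime 𝔪) b)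
    · exact Or.inr (key a b ⟨c, hc⟩)
    · exact Or.inl (key b a ⟨c, hc⟩)

variable {F Γ₀ ι : Type*} [Field F] [LinearOrderedCommGroupWithZero Γ₀]
  {B : Subring F} {v : ι → Valuation F Γ₀} {p : ι → Ideal B}

theorem vrAux_val_eq_one (V : Vert B v p) {i : ι} {s : B} (hs : s ∉ p i) : v i (s : F) = 1 := by
  rw [V.mem_p] at hs
  exact le_antisymm (V.le_one i s) (not_lt.1 hs)

theorem vr_of_ded_aux (V : Vert B v p) {P : Ideal B} (hP : P.IsMaximal) {i : ι} (hi : p i ≤ P) {x : F}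
    (hx : v i x = 1) :
    (∃ s b : B, s ∉ P ∧ v i ((s : F) * x - b) < 1) ∨
      (∃ s b : B, s ∉ P ∧ v i ((s : F) - b * x) < 1) := by
  obtain ⟨b, s, hs, hsb⟩ := V.frac i x hx.le
  have hvs : v i (s : F) = 1 := vrAux_val_eq_one V hs
  have hb : b ∉ p i := by
    intro hb
    rw [V.mem_p] at hb
    have h1 : v i ((s : F) * x) < 1 := by
      have h2 : (s : F) * x = ((s : F) * x - b) + b := by ring
      rw [h2]
      exact lt_of_le_of_lt (Valuation.map_add _ _ _) (max_lt hsb hb)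
    rw [map_mul, hvs, hx, one_mul] at h1
    exact lt_irrefl _ h1
  have hded : IsDedekindDomain (B ⧸ p i) := V.ded i
  set 𝔪 : Ideal (B ⧸ p i) := P.map (Ideal.Quotient.mk (p i)) with h𝔪
  have hmem : ∀ z : B, Ideal.Quotient.mk (p i) z ∈ 𝔪 ↔ z ∈ P := fun z =>
    Ideal.mem_quotient_iff_mem hi
  have hmax : 𝔪.IsMaximal := by
    rcases Ideal.map_eq_top_or_isMaximal_of_surjective (Ideal.Quotient.mk (p i))
      Ideal.Quotient.mk_surjective hP with h | h
    · exfalso
      have h1 : Ideal.Quotient.mk (p i) 1 ∈ 𝔪 := by rw [h𝔪, h]; exact Submodule.mem_top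
      exact hP.ne_top ((Ideal.eq_top_iff_one P).2 ((hmem 1).1 h1))
    · exact h
  have hb0 : Ideal.Quotient.mk (p i) b ≠ 0 := fun h => hb (Ideal.Quotient.eq_zero_iff_mem.1 h)
  have hs0 : Ideal.Quotient.mk (p i) s ≠ 0 := fun h => hs (Ideal.Quotient.eq_zero_iff_mem.1 h)
  -- cancel the unit `s`
  have hcancel : ∀ y : F, v i ((s : F) * y) < 1 → v i y < 1 := by
    intro y hy
    rwa [map_mul, hvs, one_mul] at hy
  rcases ded_total_aux 𝔪 hmax _ _ hb0 hs0 with ⟨s', c, hs', h⟩ | ⟨s', c, hs', h⟩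
  · obtain ⟨s', rfl⟩ := Ideal.Quotient.mk_surjective s'
    obtain ⟨c, rfl⟩ := Ideal.Quotient.mk_surjective c
    rw [hmem] at hs'
    rw [← map_mul, ← map_mul, Ideal.Quotient.eq, V.mem_p] at h
    refine Or.inl ⟨s', c, hs', hcancel _ ?_⟩
    have h2 : (s : F) * ((s' : F) * x - c)
        = (s' : F) * ((s : F) * x - b) + ((s' * b - c * s : B) : F) := by
      push_cast
      ring
    rw [h2]
    refine lt_of_le_of_lt (Valuation.map_add _ _ _) (max_lt ?_ h)
    rw [map_mul]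
    exact lt_of_le_of_lt (mul_le_of_le_one_left' (V.le_one i s')) hsb
  · obtain ⟨s', rfl⟩ := Ideal.Quotient.mk_surjective s'
    obtain ⟨c, rfl⟩ := Ideal.Quotient.mk_surjective c
    rw [hmem] at hs'
    rw [← map_mul, ← map_mul, Ideal.Quotient.eq, V.mem_p] at h
    refine Or.inr ⟨s', c, hs', hcancel _ ?_⟩
    have h2 : (s : F) * ((s' : F) - c * x)
        = ((s' * s - c * b : B) : F) + (-(c : F)) * ((s : F) * x - b) := by
      push_cast
      ring
    rw [h2]
    refine lt_of_le_of_lt (Valuation.map_add _ _ _) (max_lt h ?_)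
    rw [map_mul, Valuation.map_neg]
    exact lt_of_le_of_lt (mul_le_of_le_one_left' (V.le_one i c)) hsb

end Fermat.Agent.CAR.NS
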