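import Fermat.Agent.CAR.NS.Basic
import Fermat.Agent.CAR.NS.VRAux

/-!
# CAR / NS : the local ring of a branch at a closed point is a valuation ring, and is normal  (package CAR-NS-3)
-/

set_option autoImplicit false

namespace Fermat.Agent.CAR.NS

open Fermat.Agent.GAL

variable {F Γ₀ ι : Type*} [Field F] [LinearOrderedCommGroupWithZero Γ₀]
  {B : Subring F} {v : ι → Valuation F Γ₀} {p : ι → Ideal B}

/-- (VR) PROOF. `V.frac` gives `b s`, `s ∉ p i`, `s x ≡ b`; `b ∉ p i` since `v i (s x) = 1`.  In the Dedekind domain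
`R = B ⧸ p i` with the maximal ideal `𝔪 = map P`: the localisation at `𝔪` is a valuation ring
(`IsLocalization.AtPrime.isDiscreteValuationRing_of_dedekind_domain` if `𝔪 ≠ ⊥`; if `𝔪 = ⊥`, `R` is a field), so there are
`s' ∉ 𝔪`, `b'` with `s' b̄ = b' s̄` or `s' s̄ = b' b̄`.  (Alternative without localisation: compare the multiplicities of `𝔪`
in `(b̄)` and `(s̄)`.)  Lift to `B`; in the first case `s (s' x - b') ≡ 0`, so `s' x ≡ b'` because `v i s = 1`;
in the second `s (s' - b' x) ≡ 0`. -/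
theorem vr_of_ded (V : Vert B v p) {P : Ideal B} (hP : P.IsMaximal) {i : ι} (hi : p i ≤ P) {x : F}
    (hx : v i x = 1) :
    (∃ s b : B, s ∉ P ∧ v i ((s : F) * x - b) < 1) ∨ (∃ s b : B, s ∉ P ∧ v i ((s : F) - b * x) < 1) :=
  vr_of_ded_aux V hP hi hx

/-- pure Dedekind statement used for `vr_of_ded` (suggested intermediate step). -/
theorem ded_total {R : Type*} [CommRing R] [IsDedekindDomain R] (𝔪 : Ideal R) (h𝔪 : 𝔪.IsMaximal) (a b : R)
    (ha : a ≠ 0) (hb : b ≠ 0) : (∃ s c : R, s ∉ 𝔪 ∧ s * a = c * b) ∨ (∃ s c : R, s ∉ 𝔪 ∧ s * b = c * a) :=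
  ded_total_aux 𝔪 h𝔪 a b ha hb

/-- (NORMALITY OF THE BRANCH) if `x ^ n ≡ u` along `v i` with `u ∈ B`, `n > 0`, then `x ≡ b` for some `b ∈ B`.
PROOF. `v i x ≤ 1`.  `V.frac`: `s x ≡ b₀`, `s ∉ p i`.  In `K = FractionRing (B ⧸ p i)` the element `b̄₀ / s̄` satisfies
`(b̄₀/s̄)^n = ū` (because `s^n u ≡ s^n x^n ≡ b₀^n`, i.e. `s^n u - b₀^n ∈ p i`), so it is integral over the integrally
closed domain `B ⧸ p i`: `b̄₀ = b̄ s̄` (`IsIntegrallyClosed.algebraMap_eq_of_integral` / `isIntegral_iff`).  Then `s x ≡ b₀ ≡ b s`, and `v i s = 1`. -/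
theorem exists_cong_of_pow (V : Vert B v p) {i : ι} {n : ℕ} (hn : 0 < n) {x : F} {u : B}
    (h : v i (x ^ n - u) < 1) : ∃ b : B, v i (x - b) < 1 := by
  -- `v i x ≤ 1`
  have hx : v i x ≤ 1 := by
    have h1 : v i (x ^ n) ≤ 1 := by
      have h2 : x ^ n = (x ^ n - u) + u := by ring
      rw [h2]
      exact ((v i).map_add _ _).trans (max_le h.le (V.le_one i u))
    rw [map_pow] at h1
    exact (pow_le_one_iff hn.ne').1 h1
  obtain ⟨b₀, s, hs, hsb⟩ := V.frac i x hx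
  have hs1 : v i (s : F) = 1 := (V.notMem_iff i s).1 hs
  have hsx : v i ((s : F) * x) ≤ 1 := by rw [map_mul, hs1, one_mul]; exact hx
  -- `b₀ ^ n - u * s ^ n ∈ p i`
  have hmem : b₀ ^ n - u * s ^ n ∈ p i := by
    rw [V.mem_p]
    have e1 : v i (((s : F) * x) ^ n - (b₀ : F) ^ n) < 1 := cong_pow (v i) hsx hsb n
    have e2 : v i ((s : F) ^ n * x ^ n - (s : F) ^ n * u) < 1 :=
      cong_mul_left (v i) (by rw [map_pow, hs1, one_pow]) h
    rw [← mul_pow] at e2
    have e3 : v i ((b₀ : F) ^ n - ((s : F) * x) ^ n) < 1 := by rwa [Valuation.map_sub_swap]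
    have e4 := cong_trans (v i) e3 e2
    have e5 : ((b₀ ^ n - u * s ^ n : B) : F) = (b₀ : F) ^ n - (s : F) ^ n * u := by
      push_cast; ring
    rwa [e5]
  have := V.ded i
  have hs0 : Ideal.Quotient.mk (p i) s ≠ 0 := by rwa [Ne, Ideal.Quotient.eq_zero_iff_mem]
  have hinj := IsFractionRing.injective (B ⧸ p i) (FractionRing (B ⧸ p i))
  have hsK : algebraMap (B ⧸ p i) (FractionRing (B ⧸ p i)) (Ideal.Quotient.mk (p i) s) ≠ 0 :=
    (map_ne_zero_iff _ hinj).2 hs0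
  have hy : (algebraMap (B ⧸ p i) (FractionRing (B ⧸ p i)) (Ideal.Quotient.mk (p i) b₀) /
      algebraMap (B ⧸ p i) (FractionRing (B ⧸ p i)) (Ideal.Quotient.mk (p i) s)) ^ n
      = algebraMap (B ⧸ p i) (FractionRing (B ⧸ p i)) (Ideal.Quotient.mk (p i) u) := by
    rw [div_pow, div_eq_iff (pow_ne_zero _ hsK)]
    simp only [← map_pow, ← map_mul]
    congr 1
    exact (Ideal.Quotient.eq).2 hmem
  have hint : IsIntegral (B ⧸ p i)
      (algebraMap (B ⧸ p i) (FractionRing (B ⧸ p i)) (Ideal.Quotient.mk (p i) b₀) /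
      algebraMap (B ⧸ p i) (FractionRing (B ⧸ p i)) (Ideal.Quotient.mk (p i) s)) := by
    refine IsIntegral.of_pow hn ?_
    rw [hy]
    exact isIntegral_algebraMap
  obtain ⟨bb, hbb⟩ := IsIntegrallyClosed.isIntegral_iff.1 hint
  obtain ⟨b, rfl⟩ := Ideal.Quotient.mk_surjective bb
  rw [eq_div_iff hsK, ← map_mul, ← map_mul] at hbb
  have hb : b * s - b₀ ∈ p i := (Ideal.Quotient.eq).1 (hinj hbb)
  rw [V.mem_p] at hb
  refine ⟨b, ?_⟩
  have e6 : v i ((b₀ : F) - (s : F) * b) < 1 := by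
    rw [Valuation.map_sub_swap]
    have e7 : ((b * s - b₀ : B) : F) = (s : F) * b - b₀ := by push_cast; ring
    rwa [e7] at hb
  have e8 := cong_trans (v i) hsb e6
  rwa [← mul_sub, map_mul, hs1, one_mul] at e8

/-- (VALUES) a section `φ ∈ Lam` (with `w ≡ 1` along `v i`) such that `u = φ^n w ∉ P` has a value `b` at `P` along each
branch `i` through `P`, and `b^n = u` in `B ⧸ P`.
PROOF. `φ^n ≡ φ^n w = u` (`v i φ ≤ 1`), `exists_cong_of_pow` gives `b`; `Val` holds with `s = 1`, `z = 0`;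
`b^n - u ∈ p i ≤ P` by `cong_pow`; `b ∉ P` since `u ∉ P`. -/
theorem exists_val (V : Vert B v p) {P : Ideal B} (hP : P.IsPrime) {i : ι} (hi : p i ≤ P) {n : ℕ} (hn : 0 < n)
    {w : F} (hw : v i (w - 1) < 1) {φ : F} {u : B} (hu : (u : F) = φ ^ n * w) (huP : u ∉ P) :
    ∃ b : B, b ∉ P ∧ b ^ n - u ∈ P ∧ v i (φ - b) < 1 ∧ Val B (v i) P φ b := by
  have hw1 : v i w = 1 := val_one_of_sub (v i) hw
  have hφL : φ ∈ Lam B n w := by
    show φ ^ n * w ∈ B
    rw [← hu]; exact u.2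
  have hφ : v i φ ≤ 1 := Lam.val_le_one V hn hw1 hφL
  have h1 : v i (φ ^ n - u) < 1 := by
    have e1 : φ ^ n - u = φ ^ n * 1 - φ ^ n * w := by rw [hu, mul_one]
    rw [e1]
    refine cong_mul_left (v i) (by rw [map_pow]; exact pow_le_one' hφ n) ?_
    rwa [Valuation.map_sub_swap]
  obtain ⟨b, hb⟩ := exists_cong_of_pow V hn h1
  have h2 : b ^ n - u ∈ P := by
    apply hi
    rw [V.mem_p]
    have e2 : v i ((b : F) ^ n - φ ^ n) < 1 := by
      rw [Valuation.map_sub_swap]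
      exact cong_pow (v i) hφ hb n
    have e3 := cong_trans (v i) e2 h1
    have e4 : ((b ^ n - u : B) : F) = (b : F) ^ n - u := by push_cast; ring
    rwa [e4]
  refine ⟨b, fun hbP => huP ?_, h2, hb, 1, (Ideal.ne_top_iff_one P).1 hP.ne_top, 0, P.zero_mem, ?_⟩
  · have e5 : u = b ^ n - (b ^ n - u) := by ring
    rw [e5]
    exact P.sub_mem (P.pow_mem_of_mem hbP n hn) h2
  · simpa using hb

/-- `Val` only depends on the class of `c` modulo `P`. -/
theorem Val.congr (V : Vert B v p) {P : Ideal B} {i : ι} {φ : F} {c c' : B} (h : Val B (v i) P φ c)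
    (hc : c - c' ∈ P) : Val B (v i) P φ c' := by
  obtain ⟨s, hs, z, hz, h1⟩ := h
  refine ⟨s, hs, z + s * (c - c'), P.add_mem hz (P.mul_mem_left _ hc), ?_⟩
  have e : (s : F) * (φ - c') - ((z + s * (c - c') : B) : F) = (s : F) * (φ - c) - z := by
    push_cast; ring
  rwa [e]

end Fermat.Agent.CAR.NS
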